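import Mathlib
import Fermat.Prelude.Def_AlgebraicCurve_IsCurveOver

/-!
# Program PJ (statement S27), strand M, leaf `htr`

`trdeg_eq_one`: a function field `F / K` in the sense of the Prelude (`IsCurveOver K F`: the
Kaehler differentials are free of rank one) over a field of characteristic zero has transcendence
degree one.  This turns the binders of the frozen statement S27 into the hypothesis
`htr : Algebra.trdeg K F = 1` that the strands D, R of program MW take.

Proof: for a transcendence basis `x : ι → F`, the field `F` is algebraic, hence (characteristic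
zero) separable, hence formally etale over the rational function field `Frac (K[X_i])`, which is a
localisation of the polynomial ring `P`; so `Ω[F⁄K] ≅ F ⊗[P] Ω[P⁄K]` is free on `ι`
(`rank_kaehler_eq_mk`).  Rank one forces `#ι = 1`.
-/

set_option autoImplicit false

open scoped TensorProduct KaehlerDifferential

namespace Fermat.Agent.S27.M.Trdeg

universe u v

/-- In characteristic zero the rank of the Kaehler differentials of a field extension is the
cardinality of a transcendence basis. -/
theorem rank_kaehler_eq_mk {K : Type u} {F : Type v} [Field K] [Field F] [Algebra K F]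
    [CharZero K] {ι : Type v} {x : ι → F} (hx : IsTranscendenceBasis K x) :
    Module.rank F (Ω[F⁄K]) = Cardinal.mk ι := by
  classical
  let P := MvPolynomial ι K
  let Q := FractionRing P
  let E := IntermediateField.adjoin K (Set.range x)
  let iso : Q ≃ₐ[K] E := hx.1.aevalEquivField
  let φ : Q →+* F := (algebraMap E F).comp (iso : Q →+* E)
  letI algQF : Algebra Q F := φ.toAlgebra
  letI algPF : Algebra P F := (φ.comp (algebraMap P Q)).toAlgebra
  haveI : IsScalarTower P Q F := IsScalarTower.of_algebraMap_eq fun _ => rfl
  haveI : IsScalarTower K Q F := IsScalarTower.of_algebraMap_eq fun c => by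
    show algebraMap K F c = algebraMap E F (iso (algebraMap K Q c))
    rw [iso.commutes]
    rfl
  haveI : IsScalarTower K P F := IsScalarTower.of_algebraMap_eq fun c => by
    show algebraMap K F c = algebraMap Q F (algebraMap P Q (algebraMap K P c))
    rw [← IsScalarTower.algebraMap_apply K P Q, ← IsScalarTower.algebraMap_apply K Q F]
  haveI : Algebra.IsAlgebraic E F := hx.isAlgebraic_field
  haveI : Algebra.IsAlgebraic Q F :=
    Algebra.IsAlgebraic.ringHom_of_comp_eq (R := E) (S := Q) (A := F) (B := F)
      (iso.symm : E →+* Q) (RingHom.id F) iso.symm.injective Function.surjective_id (by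
        ext e
        show algebraMap E F (iso (iso.symm e)) = algebraMap E F e
        rw [iso.apply_symm_apply])
  haveI : CharZero Q := charZero_of_injective_algebraMap (algebraMap K Q).injective
  haveI : Algebra.FormallyEtale Q F := Algebra.FormallyEtale.of_isSeparable Q F
  haveI : Algebra.FormallyEtale P Q :=
    Algebra.FormallyEtale.of_isLocalization (Rₘ := Q) (nonZeroDivisors P)
  haveI : Algebra.FormallyEtale P F := Algebra.FormallyEtale.comp P Q F
  let e : F ⊗[P] Ω[P⁄K] ≃ₗ[F] Ω[F⁄K] :=
    KaehlerDifferential.tensorKaehlerEquivOfFormallyEtale K P F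
  let b : Module.Basis ι F (Ω[F⁄K]) :=
    ((KaehlerDifferential.mvPolynomialBasis K ι).baseChange F).map e
  exact b.mk_eq_rank''.symm

/-- **`htr`**: a Prelude curve over a field of characteristic zero has transcendence degree
one. -/
theorem trdeg_eq_one' (K F : Type*) [Field K] [Field F] [Algebra K F] [CharZero K]
    [AlgebraicCurve.IsCurveOver K F] : Algebra.trdeg K F = 1 := by
  obtain ⟨s, hs⟩ := exists_isTranscendenceBasis K F
  have h1 : Module.rank F (Ω[F⁄K]) = Cardinal.mk s := rank_kaehler_eq_mk hs
  have h2 : Module.finrank F (Ω[F⁄K]) = 1 := AlgebraicCurve.IsCurveOver.finrank_kaehler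
  have h3 : Module.rank F (Ω[F⁄K]) = 1 := Cardinal.toNat_eq_one.mp h2
  rw [← hs.cardinalMk_eq_trdeg, ← h1, h3]

/-- **`htr`** with the binders of the frozen statement S27. -/
theorem trdeg_eq_one (K F : Type*) [Field K] [Field F] [Algebra K F] [CharZero K]
    [AlgebraicCurve.IsCurveOver K F] [Algebra.EssFiniteType K F] : Algebra.trdeg K F = 1 :=
  trdeg_eq_one' K F

end Fermat.Agent.S27.M.Trdeg
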