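import Mathlib
import Fermat.Agent.S17.R.Branch
import Fermat.Agent.S17.R.Eval
import Fermat.Agent.S17.R.PoleDegree
import Fermat.Agent.S17.HB.Deg.Defs
import Fermat.Agent.S17.HB.Deg.Pullback
import Fermat.Agent.Lib.FFNorm.Value

/-!
# Program PJ (statement S27), strand M: the fibres of an embedding of function fields

`F / K` and `M / K` are function fields of one variable over an algebraically closed field of
characteristic zero and `ρ : F →ₐ[K] M` is a `K`-embedding (a "moving point" of the curve of `F`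
on the curve of `M`).  In the vocabulary of LOC2 (`Loc2.centre`, `Loc2.ram`):

* `exists_finset_unramified` : all but finitely many places `Q` of `F` are unramified in `M`:
  every place `c` of `M` with centre `Q` has `Loc2.ram ρ c = 1`;
* `exists_finset_card_fibre` : for all but finitely many places `Q` of `F` the fibre of `Q`
  (the places of `M` with centre `Q`) has exactly `[M : ρ F] = finrankAlong K ρ` elements;
* `exists_finset_ncard_fibre` : the same for the fibre as a set (`Set.ncard`), and
  `exists_finset_forall_unramified`, `exists_finset_forall_ncard_fibre` : finitely many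
  embeddings at once, with one exceptional finite set.

Proof: choose `t ∈ F` transcendental.  By `R.branch_finite` applied to `ρ t ∈ M` only finitely
many values `a ∈ K` have a place `c` of `M` with `1 < c.ord (ρ t - a)`.  Off the poles of `t`
and off the zeros of `t - a` for these finitely many `a`, the value `a` of `t` at `Q` is not one
of them, and `c.ord (ρ (t - a)) = ram c * Q.ord (t - a)` (`Loc2.ord_map`) forces `ram c = 1`.
The count is then `Deg.Pullback.sum_ite_centre_eq` (`∑_{c ∣ Q} ram c = [M : ρ F]`).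
-/

set_option autoImplicit false
set_option linter.unusedSectionVars false
set_option linter.style.haveILetI false

open AlgebraicCurve

namespace Fermat.Agent.S27.M.Fibre

open Fermat.Agent Fermat.Agent.S17 Fermat.Agent.S17.HB Fermat.Agent.S24.FF

variable {K F M : Type*} [Field K] [Field F] [Field M] [Algebra K F] [Algebra K M]
variable [IsAlgClosed K] [CharZero K] [Algebra.EssFiniteType K F] [Algebra.EssFiniteType K M]

/-- The value of a transcendental function at a place where it is regular. -/
theorem exists_value (htrF : Algebra.trdeg K F = 1) (Q : Place K F) {t : F}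
    (ht : Transcendental K t) (hQ : 0 ≤ Q.ord t) :
    ∃ a : K, 0 < Q.ord (t - algebraMap K F a) := by
  have ht0 : t ≠ 0 := by
    rintro rfl
    exact ht (isAlgebraic_zero)
  have hmem : t ∈ Q.toValuationSubring := (ord_nonneg_iff Q ht0).mp hQ
  refine ⟨R.evalAt htrF Q ⟨t, hmem⟩, ?_⟩
  rcases (R.evalAt_eq_iff htrF Q ⟨t, hmem⟩ (R.evalAt htrF Q ⟨t, hmem⟩)).mp rfl with h | h
  · have h' : t = algebraMap K F (R.evalAt htrF Q ⟨t, hmem⟩) := h
    exact absurd (h'.symm ▸ isAlgebraic_algebraMap (R := K) (A := F) _ : IsAlgebraic K t) ht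
  · exact h

/-- **Unramified fibres.** All but finitely many places of `F` are unramified in `M`. -/
theorem exists_finset_unramified (htrF : Algebra.trdeg K F = 1) (htrM : Algebra.trdeg K M = 1)
    (ρ : F →ₐ[K] M) :
    ∃ S : Finset (Place K F), ∀ Q : Place K F, Q ∉ S → ∀ c : Place K M,
      Loc2.centre ρ (Loc2.algHom_isIntegral htrF htrM ρ) c = Q → Loc2.ram ρ c = 1 := by
  classical
  by_cases hne : Nonempty (Place K F)
  swap
  · exact ⟨∅, fun Q => (hne ⟨Q⟩).elim⟩
  obtain ⟨T⟩ := hne
  obtain ⟨t, ht1⟩ := Deg.exists_ord_eq_one T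
  have htr_t : Transcendental K t :=
    R.PoleDegree.transcendental_of_ord_ne_zero (v := T) (by omega)
  have hρt : Transcendental K (ρ t) := fun halg =>
    htr_t ((isAlgebraic_algHom_iff ρ ρ.injective).mp halg)
  have hbad := R.branch_finite htrM hρt
  have hpoles := poles_finite htrF htr_t
  have hz : {Q : Place K F | ∃ a ∈ {a : K | ∃ v : Place K M,
      1 < v.ord (ρ t - algebraMap K M a)}, 0 < Q.ord (t - algebraMap K F a)}.Finite := by
    have h : {Q : Place K F | ∃ a ∈ {a : K | ∃ v : Place K M,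
        1 < v.ord (ρ t - algebraMap K M a)}, 0 < Q.ord (t - algebraMap K F a)}
        = ⋃ a ∈ {a : K | ∃ v : Place K M, 1 < v.ord (ρ t - algebraMap K M a)},
          {Q : Place K F | 0 < Q.ord (t - algebraMap K F a)} := by
      ext Q
      simp
    rw [h]
    exact hbad.biUnion fun a _ => zeros_finite htrF htr_t a
  refine ⟨(hpoles.union hz).toFinset, ?_⟩
  intro Q hQ c hc
  rw [Set.Finite.mem_toFinset, Set.mem_union, not_or] at hQ
  obtain ⟨hQ1, hQ2⟩ := hQ
  have hQt : 0 ≤ Q.ord t := not_lt.mp hQ1
  obtain ⟨a, ha⟩ := exists_value htrF Q htr_t hQt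
  have hnotbad : ¬ ∃ v : Place K M, 1 < v.ord (ρ t - algebraMap K M a) :=
    fun hb => hQ2 ⟨a, hb, ha⟩
  have hord := Loc2.ord_map ρ (Loc2.algHom_isIntegral htrF htrM ρ) c (t - algebraMap K F a)
  rw [hc, map_sub, AlgHom.commutes] at hord
  have hle : c.ord (ρ t - algebraMap K M a) ≤ 1 := not_lt.mp fun h => hnotbad ⟨c, h⟩
  have hpos := Loc2.ram_pos ρ (Loc2.algHom_isIntegral htrF htrM ρ) c
  have hpos' : (1 : ℤ) ≤ (Loc2.ram ρ c : ℤ) := by exact_mod_cast hpos
  have hmul : (Loc2.ram ρ c : ℤ) * 1 ≤ (Loc2.ram ρ c : ℤ) * Q.ord (t - algebraMap K F a) :=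
    mul_le_mul_of_nonneg_left (by omega) (by omega)
  have hfin : (Loc2.ram ρ c : ℤ) = 1 := by omega
  exact_mod_cast hfin

/-- **The generic fibre.** For all but finitely many places `Q` of `F`, the places of `M` with
centre `Q` are exactly `[M : ρ F]` in number. -/
theorem exists_finset_card_fibre (htrF : Algebra.trdeg K F = 1) (htrM : Algebra.trdeg K M = 1)
    (ρ : F →ₐ[K] M) :
    ∃ S : Finset (Place K F), ∀ Q : Place K F, Q ∉ S → ∀ T : Finset (Place K M),
      (∀ c, c ∈ T ↔ Loc2.centre ρ (Loc2.algHom_isIntegral htrF htrM ρ) c = Q) →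
      T.card = finrankAlong K ρ := by
  classical
  obtain ⟨S, hS⟩ := exists_finset_unramified htrF htrM ρ
  refine ⟨S, fun Q hQ T hT => ?_⟩
  have h := Deg.Pullback.sum_ite_centre_eq htrF htrM ρ Q T (fun c hc => (hT c).mpr hc)
  have hcard : (T.card : ℤ) = (finrankAlong K ρ : ℤ) := by
    rw [← h, Finset.card_eq_sum_ones, Nat.cast_sum]
    refine Finset.sum_congr rfl fun c hc => ?_
    rw [if_pos ((hT c).mp hc), hS Q hQ c ((hT c).mp hc)]
  exact_mod_cast hcard

/-- The generic fibre as a set: `Set.ncard` form. -/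
theorem exists_finset_ncard_fibre (htrF : Algebra.trdeg K F = 1) (htrM : Algebra.trdeg K M = 1)
    (ρ : F →ₐ[K] M) :
    ∃ S : Finset (Place K F), ∀ Q : Place K F, Q ∉ S →
      {c : Place K M | Loc2.centre ρ (Loc2.algHom_isIntegral htrF htrM ρ) c = Q}.ncard
        = finrankAlong K ρ := by
  classical
  obtain ⟨S, hS⟩ := exists_finset_card_fibre htrF htrM ρ
  refine ⟨S, fun Q hQ => ?_⟩
  have hfin := Deg.Pullback.finite_centre_eq htrF htrM ρ Q
  rw [Set.ncard_eq_toFinset_card _ hfin]
  exact hS Q hQ hfin.toFinset fun c => by rw [Set.Finite.mem_toFinset]; rfl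

/-- Finitely many embeddings at once: one exceptional finite set off which every fibre of every
embedding is unramified. -/
theorem exists_finset_forall_unramified (htrF : Algebra.trdeg K F = 1)
    (htrM : Algebra.trdeg K M = 1) {ι : Type*} [Finite ι] (ρ : ι → (F →ₐ[K] M)) :
    ∃ S : Finset (Place K F), ∀ Q : Place K F, Q ∉ S → ∀ (i : ι) (c : Place K M),
      Loc2.centre (ρ i) (Loc2.algHom_isIntegral htrF htrM (ρ i)) c = Q →
        Loc2.ram (ρ i) c = 1 := by
  classical
  cases nonempty_fintype ι
  choose S hS using fun i => exists_finset_unramified htrF htrM (ρ i)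
  refine ⟨Finset.univ.biUnion S, fun Q hQ i c hc => hS i Q (fun hmem => hQ ?_) c hc⟩
  exact Finset.mem_biUnion.mpr ⟨i, Finset.mem_univ i, hmem⟩

/-- Finitely many embeddings at once: one exceptional finite set off which every fibre of the
`i`-th embedding has `[M : ρ i F]` elements. -/
theorem exists_finset_forall_ncard_fibre (htrF : Algebra.trdeg K F = 1)
    (htrM : Algebra.trdeg K M = 1) {ι : Type*} [Finite ι] (ρ : ι → (F →ₐ[K] M)) :
    ∃ S : Finset (Place K F), ∀ Q : Place K F, Q ∉ S → ∀ i : ι,
      {c : Place K M | Loc2.centre (ρ i) (Loc2.algHom_isIntegral htrF htrM (ρ i)) c = Q}.ncard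
        = finrankAlong K (ρ i) := by
  classical
  cases nonempty_fintype ι
  choose S hS using fun i => exists_finset_ncard_fibre htrF htrM (ρ i)
  refine ⟨Finset.univ.biUnion S, fun Q hQ i => hS i Q fun hmem => hQ ?_⟩
  exact Finset.mem_biUnion.mpr ⟨i, Finset.mem_univ i, hmem⟩

/-! ## The same in the Prelude's vocabulary (`Place.fiberAlong`, `ramificationIndexAlong`) -/

section Along

variable [HasPrincipalDivisors K M]

/-- **(M3a)** Every fibre of `ρ` has at most `[M : ρ F]` places. -/
theorem card_fiberAlong_le (htrF : Algebra.trdeg K F = 1) (htrM : Algebra.trdeg K M = 1)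
    (ρ : F →ₐ[K] M) (hρ : ρ.toRingHom.IsIntegral) (v : Place K F) :
    (Place.fiberAlong ρ hρ v).card ≤ finrankAlong K ρ := by
  have h := Lib.FFNorm.sum_ramificationIndexAlong_fiberAlong ρ hρ htrF htrM v
  calc (Place.fiberAlong ρ hρ v).card
      = ∑ _w ∈ Place.fiberAlong ρ hρ v, 1 := by rw [Finset.card_eq_sum_ones]
    _ ≤ ∑ w ∈ Place.fiberAlong ρ hρ v, w.ramificationIndexAlong ρ :=
        Finset.sum_le_sum fun w _ => Loc2.ram_pos ρ hρ w
    _ = finrankAlong K ρ := h

/-- **(M3b)** For all but finitely many places `v` of `F` the fibre of `v` has exactly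
`[M : ρ F]` places, all unramified. -/
theorem exists_finset_fiberAlong (htrF : Algebra.trdeg K F = 1) (htrM : Algebra.trdeg K M = 1)
    (ρ : F →ₐ[K] M) (hρ : ρ.toRingHom.IsIntegral) :
    ∃ S : Finset (Place K F), ∀ v : Place K F, v ∉ S →
      (Place.fiberAlong ρ hρ v).card = finrankAlong K ρ ∧
      ∀ w ∈ Place.fiberAlong ρ hρ v, w.ramificationIndexAlong ρ = 1 := by
  obtain ⟨S, hS⟩ := exists_finset_unramified htrF htrM ρ
  refine ⟨S, fun v hv => ?_⟩
  have hram : ∀ w ∈ Place.fiberAlong ρ hρ v, w.ramificationIndexAlong ρ = 1 := fun w hw =>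
    hS v hv w (Place.mem_fiberAlong.mp hw)
  refine ⟨?_, hram⟩
  have h := Lib.FFNorm.sum_ramificationIndexAlong_fiberAlong ρ hρ htrF htrM v
  rw [← h, Finset.card_eq_sum_ones]
  exact Finset.sum_congr rfl fun w hw => (hram w hw).symm

/-- **(M3b)** under the name of the strand ledger (M LINE #2 (6)). -/
theorem exists_finset_forall_card_fiberAlong (htrF : Algebra.trdeg K F = 1)
    (htrM : Algebra.trdeg K M = 1) (ρ : F →ₐ[K] M) (hρ : ρ.toRingHom.IsIntegral) :
    ∃ S : Finset (Place K F), ∀ v : Place K F, v ∉ S →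
      (Place.fiberAlong ρ hρ v).card = finrankAlong K ρ ∧
      ∀ w ∈ Place.fiberAlong ρ hρ v, w.ramificationIndexAlong ρ = 1 :=
  exists_finset_fiberAlong htrF htrM ρ hρ

/-- Only finitely many places of `M` are ramified over `F`. -/
theorem finite_ramified (htrF : Algebra.trdeg K F = 1) (htrM : Algebra.trdeg K M = 1)
    (ρ : F →ₐ[K] M) (hρ : ρ.toRingHom.IsIntegral) :
    {w : Place K M | w.ramificationIndexAlong ρ ≠ 1}.Finite := by
  classical
  obtain ⟨S, hS⟩ := exists_finset_fiberAlong htrF htrM ρ hρ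
  refine (S.biUnion fun v => Place.fiberAlong ρ hρ v).finite_toSet.subset ?_
  intro w hw
  rw [Finset.mem_coe, Finset.mem_biUnion]
  refine ⟨w.restrictAlong ρ hρ, ?_, Place.mem_fiberAlong.mpr rfl⟩
  by_contra hnot
  exact hw ((hS _ hnot).2 w (Place.mem_fiberAlong.mpr rfl))

/-- **(M3b)** for finitely many embeddings at once, with one exceptional finite set. -/
theorem exists_finset_forall_fiberAlong (htrF : Algebra.trdeg K F = 1)
    (htrM : Algebra.trdeg K M = 1) {ι : Type*} [Finite ι] (ρ : ι → (F →ₐ[K] M))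
    (hρ : ∀ i, (ρ i).toRingHom.IsIntegral) :
    ∃ S : Finset (Place K F), ∀ v : Place K F, v ∉ S → ∀ i : ι,
      (Place.fiberAlong (ρ i) (hρ i) v).card = finrankAlong K (ρ i) ∧
      ∀ w ∈ Place.fiberAlong (ρ i) (hρ i) v, w.ramificationIndexAlong (ρ i) = 1 := by
  classical
  cases nonempty_fintype ι
  choose S hS using fun i => exists_finset_fiberAlong htrF htrM (ρ i) (hρ i)
  refine ⟨Finset.univ.biUnion S, fun v hv i => hS i v fun hmem => hv ?_⟩
  exact Finset.mem_biUnion.mpr ⟨i, Finset.mem_univ i, hmem⟩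

end Along

end Fermat.Agent.S27.M.Fibre
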