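import Mathlib
import Fermat.Agent.S17.R.Branch
import Fermat.Agent.S17.R.Eval
import Fermat.Agent.S17.R.Places
import Fermat.Agent.S17.HB.Deg.Pullback

/-!
# Program PJ (statement S27), strand M: fibres of a configuration field over the curve

`F / K` and `M / K` function fields of one variable over an algebraically closed field of
characteristic zero, `ρ : F →ₐ[K] M` a `K`-embedding, `Loc2.centre ρ _ c` the centre on `F` of a
place `c` of `M` and `Loc2.ram ρ c` its ramification index (strand HB's vocabulary = the Prelude's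
`Place.restrictAlong` / `Place.ramificationIndexAlong`).

* `finite_ram` : only finitely many places of `M` are ramified over `F`;
* `exists_finset_unramified` : all but finitely many places `Q` of `F` have only unramified
  places of `M` above them;
* `ncard_centre_eq` : over such a `Q` there are exactly `[M : ρ F]` places of `M`;
* `exists_finset_ncard_centre_eq` : the two together - for all but finitely many places `Q` of
  `F`, every place of `M` over `Q` is unramified and there are exactly `finrankAlong K ρ` of them.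

Proof of `finite_ram`: fix a transcendental `x` of `F`.  A ramified place `c` whose centre `Q` is
not a pole of `x` is a zero of `ρ x - a`, `a` the value of `x` at `Q`, of order
`e(c) * ord_Q (x - a) ≥ 2`; so `a` lies in the (finite) branch locus of `ρ x` on `M`
(`R.branch_finite`) and `c` is one of the finitely many zeros of `ρ x - a`.  The places over the
finitely many poles of `x` are finitely many (`Pullback.finite_centre_eq`).
-/

set_option autoImplicit false
set_option linter.unusedSectionVars false

open AlgebraicCurve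

namespace Fermat.Agent.S27.M.FibreCount

open Fermat.Agent.S17 Fermat.Agent.S17.HB Fermat.Agent.S17.HB.Deg

variable {K F M : Type*} [Field K] [Field F] [Field M] [Algebra K F] [Algebra K M]
variable [IsAlgClosed K] [CharZero K] [Algebra.EssFiniteType K F] [Algebra.EssFiniteType K M]

/-- Only finitely many places of `M` are ramified over `F`. -/
theorem finite_ram (htrF : Algebra.trdeg K F = 1) (htrM : Algebra.trdeg K M = 1)
    (ρ : F →ₐ[K] M) : {c : Place K M | 1 < Loc2.ram ρ c}.Finite := by
  classical
  obtain ⟨x, hx⟩ := R.exists_transcendental htrF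
  have hρx : Transcendental K (ρ x) := fun h =>
    hx ((isAlgebraic_algHom_iff ρ ρ.injective).mp h)
  have hx0 : x ≠ 0 := fun h => hx (h ▸ isAlgebraic_zero)
  -- the places over the poles of `x`
  have hA : {c : Place K M |
      (Loc2.centre ρ (Loc2.algHom_isIntegral htrF htrM ρ) c).ord x < 0}.Finite := by
    refine (Set.Finite.biUnion (S24.FF.poles_finite htrF hx) fun Q _ =>
      Pullback.finite_centre_eq htrF htrM ρ Q).subset ?_
    intro c hc
    simp only [Set.mem_iUnion, Set.mem_ofPred_eq, exists_prop]
    exact ⟨Loc2.centre ρ (Loc2.algHom_isIntegral htrF htrM ρ) c, hc, rfl⟩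
  -- the zeros of `ρ x - a` for the branch values `a` of `ρ x`
  have hB : {c : Place K M | ∃ a : K, (∃ v : Place K M, 1 < v.ord (ρ x - algebraMap K M a)) ∧
      0 < c.ord (ρ x - algebraMap K M a)}.Finite := by
    refine (Set.Finite.biUnion (R.branch_finite htrM hρx) fun a _ =>
      S24.FF.zeros_finite htrM hρx a).subset ?_
    rintro c ⟨a, ha, hc⟩
    simp only [Set.mem_iUnion, Set.mem_ofPred_eq, exists_prop]
    exact ⟨a, ha, hc⟩
  refine (hA.union hB).subset ?_
  intro c hc
  rw [Set.mem_ofPred_eq] at hc
  by_cases hpole : (Loc2.centre ρ (Loc2.algHom_isIntegral htrF htrM ρ) c).ord x < 0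
  · exact Or.inl hpole
  · right
    rw [not_lt] at hpole
    have hmem : x ∈ (Loc2.centre ρ (Loc2.algHom_isIntegral htrF htrM ρ) c).toValuationSubring :=
      (S24.FF.ord_nonneg_iff _ hx0).mp hpole
    obtain ⟨a, ha⟩ : ∃ a : K, R.evalAt htrF
        (Loc2.centre ρ (Loc2.algHom_isIntegral htrF htrM ρ) c) ⟨x, hmem⟩ = a := ⟨_, rfl⟩
    have hxa : x ≠ algebraMap K F a := fun h => hx (h ▸ isAlgebraic_algebraMap a)
    have hpos : 0 < (Loc2.centre ρ (Loc2.algHom_isIntegral htrF htrM ρ) c).ord
        (x - algebraMap K F a) :=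
      ((R.evalAt_eq_iff htrF _ ⟨x, hmem⟩ a).mp ha).resolve_left hxa
    have hmap : c.ord (ρ x - algebraMap K M a) = Loc2.ram ρ c *
        (Loc2.centre ρ (Loc2.algHom_isIntegral htrF htrM ρ) c).ord (x - algebraMap K F a) := by
      rw [← Loc2.ord_map ρ (Loc2.algHom_isIntegral htrF htrM ρ) c, map_sub, AlgHom.commutes]
    have h2 : (2 : ℤ) ≤ (Loc2.ram ρ c : ℤ) := by exact_mod_cast hc
    have hgt : 1 < c.ord (ρ x - algebraMap K M a) := by
      rw [hmap]
      nlinarith
    exact ⟨a, ⟨c, hgt⟩, by omega⟩

/-- All but finitely many places of `F` have only unramified places of `M` above them. -/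
theorem exists_finset_unramified (htrF : Algebra.trdeg K F = 1) (htrM : Algebra.trdeg K M = 1)
    (ρ : F →ₐ[K] M) :
    ∃ S₀ : Finset (Place K F), ∀ c : Place K M,
      Loc2.centre ρ (Loc2.algHom_isIntegral htrF htrM ρ) c ∉ S₀ → Loc2.ram ρ c = 1 := by
  classical
  have hfin := finite_ram htrF htrM ρ
  refine ⟨hfin.toFinset.image (Loc2.centre ρ (Loc2.algHom_isIntegral htrF htrM ρ)), ?_⟩
  intro c hc
  by_contra hne
  apply hc
  rw [Finset.mem_image]
  refine ⟨c, hfin.mem_toFinset.mpr ?_, rfl⟩
  have hpos := Loc2.ram_pos ρ (Loc2.algHom_isIntegral htrF htrM ρ) c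
  rw [Set.mem_ofPred_eq]
  omega

/-- Over a place `Q` of `F` all of whose places of `M` are unramified there are exactly
`[M : ρ F]` places of `M`. -/
theorem ncard_centre_eq (htrF : Algebra.trdeg K F = 1) (htrM : Algebra.trdeg K M = 1)
    (ρ : F →ₐ[K] M) (Q : Place K F)
    (hQ : ∀ c : Place K M, Loc2.centre ρ (Loc2.algHom_isIntegral htrF htrM ρ) c = Q →
      Loc2.ram ρ c = 1) :
    {c : Place K M | Loc2.centre ρ (Loc2.algHom_isIntegral htrF htrM ρ) c = Q}.ncard =
      finrankAlong K ρ := by
  classical
  have hfin := Pullback.finite_centre_eq htrF htrM ρ Q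
  have hsum := Pullback.sum_ite_centre_eq htrF htrM ρ Q hfin.toFinset
    (fun c hc => hfin.mem_toFinset.mpr hc)
  have hone : ∀ c ∈ hfin.toFinset,
      (if Loc2.centre ρ (Loc2.algHom_isIntegral htrF htrM ρ) c = Q
        then (Loc2.ram ρ c : ℤ) else 0) = 1 := by
    intro c hc
    have hcQ : Loc2.centre ρ (Loc2.algHom_isIntegral htrF htrM ρ) c = Q :=
      hfin.mem_toFinset.mp hc
    rw [if_pos hcQ, hQ c hcQ, Nat.cast_one]
  rw [Finset.sum_congr rfl hone, Finset.sum_const, nsmul_eq_mul, mul_one] at hsum
  rw [Set.ncard_eq_toFinset_card _ hfin]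
  exact_mod_cast hsum

/-- **Fibre count.** For all but finitely many places `Q` of `F`, every place of `M` over `Q` is
unramified and there are exactly `[M : ρ F]` of them. -/
theorem exists_finset_ncard_centre_eq (htrF : Algebra.trdeg K F = 1)
    (htrM : Algebra.trdeg K M = 1) (ρ : F →ₐ[K] M) :
    ∃ S₀ : Finset (Place K F), ∀ Q : Place K F, Q ∉ S₀ →
      (∀ c : Place K M, Loc2.centre ρ (Loc2.algHom_isIntegral htrF htrM ρ) c = Q →
        Loc2.ram ρ c = 1) ∧
      {c : Place K M | Loc2.centre ρ (Loc2.algHom_isIntegral htrF htrM ρ) c = Q}.ncard =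
        finrankAlong K ρ := by
  obtain ⟨S₀, hS₀⟩ := exists_finset_unramified htrF htrM ρ
  refine ⟨S₀, fun Q hQ => ?_⟩
  have hun : ∀ c : Place K M, Loc2.centre ρ (Loc2.algHom_isIntegral htrF htrM ρ) c = Q →
      Loc2.ram ρ c = 1 := fun c hc => hS₀ c (hc ▸ hQ)
  exact ⟨hun, ncard_centre_eq htrF htrM ρ Q hun⟩

end Fermat.Agent.S27.M.FibreCount
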