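/-
Fermat/Agent/S27/M/GP1.lean  (helper27; program PJ, strand M, leaf M5 = GP1: owner by M LINE #2 (4)).

General position of `g + 1` points on strand R's vocabulary (`gR`, `riemannRochSpace`), from
Riemann's inequality, the one-point step and the non-special step ONLY (no Riemann-Roch, no
canonical divisor).  `K` algebraically closed of characteristic zero, `trdeg K F = 1`.

* `finrank_L_sum_of_subset` : `l(∑ E) = 1`, `s ⊆ E`  ==>  `l(∑ s) = 1`.
* `swap` (Finset form) / `exists_finset_forall_swap` (literal M5a) : `E` a set of `gR` places with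
  `l(∑ E) = 1`  ==>  there is a finite `S ⊇ E` such that for every `Z ∉ S` and every `P ∈ E`
  the set `E - P + Z` is again non-special (any `g` of the `g + 1` points `E ∪ {Z}` are
  non-special).
* `finrank_eq_two_of_erase`, `exists_erase_of_finrank_eq_two` (Finset forms) and
  `finrank_L_eq_two_iff` (literal M5b) : for `gR + 1` distinct places `X`,
  `l(∑ X) = 2`  iff  some `gR` of them are non-special.

The proof of `swap` follows the text of helper21 (notes/helper21/S27_M_SwapTwin.lean.txt).
-/
import Mathlib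
import Fermat.Prelude.Def_AlgebraicCurve_Repartitions
import Fermat.Agent.S17.R.LSpace
import Fermat.Agent.S17.R.LStep
import Fermat.Agent.S17.R.Riemann
import Fermat.Agent.S17.R.NonSpecialStep

set_option autoImplicit false

namespace Fermat.Agent.S27.M.GP1

open AlgebraicCurve Fermat.Agent.S17.R

variable {K F : Type*} [Field K] [Field F] [Algebra K F]
variable [IsAlgClosed K] [CharZero K] [Algebra.EssFiniteType K F]

/-- `l(∑ E) = 1` is inherited by subsets. -/
theorem finrank_L_sum_of_subset (htr : Algebra.trdeg K F = 1) {s E : Finset (Place K F)}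
    (hs : s ⊆ E)
    (hE : Module.finrank K ↥(riemannRochSpace (∑ v ∈ E, Finsupp.single v (1 : ℤ))) = 1) :
    Module.finrank K ↥(riemannRochSpace (∑ v ∈ s, Finsupp.single v (1 : ℤ))) = 1 := by
  have := finite_L htr (∑ v ∈ E, Finsupp.single v (1 : ℤ))
  have := finite_L htr (∑ v ∈ s, Finsupp.single v (1 : ℤ))
  have h1 : riemannRochSpace (0 : Divisor K F) ≤
      riemannRochSpace (∑ v ∈ s, Finsupp.single v (1 : ℤ)) :=
    L_mono (NonSpecialStep.sum_single_nonneg s)
  have h2 : riemannRochSpace (∑ v ∈ s, Finsupp.single v (1 : ℤ)) ≤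
      riemannRochSpace (∑ v ∈ E, Finsupp.single v (1 : ℤ)) :=
    L_mono (Finset.sum_le_sum_of_subset_of_nonneg hs
      (fun v _ _ => NonSpecialStep.single_one_nonneg v))
  have h3 := Submodule.finrank_mono h1
  have h4 := Submodule.finrank_mono h2
  rw [NonSpecialStep.finrank_L_zero htr] at h3
  omega

/-- **SWAP, Finset form**: if `E` is a set of `gR` places with `l(∑ E) = 1`, then off a finite
set `S ⊇ E` every `Z` can replace every `P ∈ E`: `l(∑ (insert Z (E.erase P))) = 1`. -/
theorem swap [DecidableEq (Place K F)] (htr : Algebra.trdeg K F = 1) (E : Finset (Place K F))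
    (hcard : E.card = gR K F)
    (hE : Module.finrank K ↥(riemannRochSpace (∑ v ∈ E, Finsupp.single v (1 : ℤ))) = 1) :
    ∃ S : Finset (Place K F), E ⊆ S ∧ ∀ Z : Place K F, Z ∉ S → ∀ P ∈ E,
      Module.finrank K
        ↥(riemannRochSpace (∑ v ∈ insert Z (E.erase P), Finsupp.single v (1 : ℤ))) = 1 := by
  obtain ⟨c, hc⟩ := riemann_eq_of_large (K := K) (F := F) htr
  have hbad : ∀ P ∈ (E : Set (Place K F)),
      {Z : Place K F | (∑ v ∈ E.erase P, Finsupp.single v (1 : ℤ) : Divisor K F) Z = 0 ∧
        Module.finrank K ↥(riemannRochSpace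
          ((∑ v ∈ E.erase P, Finsupp.single v (1 : ℤ) : Divisor K F) +
            Finsupp.single Z (1 : ℤ))) ≠ 1}.Finite := by
    intro P hP
    have hP' : P ∈ E := Finset.mem_coe.mp hP
    have hA1 := finrank_L_sum_of_subset htr (Finset.erase_subset P E) hE
    have hpos : 0 < gR K F := by
      rw [← hcard]
      exact Finset.card_pos.mpr ⟨P, hP'⟩
    have hdeg : Divisor.degree (∑ v ∈ E.erase P, Finsupp.single v (1 : ℤ) : Divisor K F) <
        (gR K F : ℤ) := by
      rw [NonSpecialStep.degree_sum_single htr, Finset.card_erase_of_mem hP', hcard]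
      omega
    exact (nonspecial_step htr hc (NonSpecialStep.sum_single_nonneg _) hA1 hdeg).1
  have hfin : ((E : Set (Place K F)) ∪ ⋃ P ∈ (E : Set (Place K F)),
      {Z : Place K F | (∑ v ∈ E.erase P, Finsupp.single v (1 : ℤ) : Divisor K F) Z = 0 ∧
        Module.finrank K ↥(riemannRochSpace
          ((∑ v ∈ E.erase P, Finsupp.single v (1 : ℤ) : Divisor K F) +
            Finsupp.single Z (1 : ℤ))) ≠ 1}).Finite :=
    E.finite_toSet.union (Set.Finite.biUnion E.finite_toSet hbad)
  refine ⟨hfin.toFinset, ?_, ?_⟩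
  · intro v hv
    rw [Set.Finite.mem_toFinset]
    exact Or.inl (Finset.mem_coe.mpr hv)
  · intro Z hZ P hP
    rw [Set.Finite.mem_toFinset, Set.mem_union, not_or] at hZ
    obtain ⟨hZE, hZbad⟩ := hZ
    have hZE' : Z ∉ E := fun h => hZE (Finset.mem_coe.mpr h)
    have hZer : Z ∉ E.erase P := fun h => hZE' (Finset.mem_of_mem_erase h)
    rw [Finset.sum_insert hZer, add_comm (Finsupp.single Z (1 : ℤ)) _]
    by_contra hne
    exact hZbad (Set.mem_biUnion (Finset.mem_coe.mpr hP)
      ⟨NonSpecialStep.sum_single_apply_of_notMem _ hZer, hne⟩)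

/-- `X` a set of `gR + 1` places one of whose `gR`-subsets is non-special: `l(∑ X) = 2`
(Riemann's inequality gives `≥ 2`, the one-point step gives `≤ 2`). -/
theorem finrank_eq_two_of_erase [DecidableEq (Place K F)] (htr : Algebra.trdeg K F = 1)
    (X : Finset (Place K F)) (hcard : X.card = gR K F + 1) {P : Place K F} (hP : P ∈ X)
    (h : Module.finrank K ↥(riemannRochSpace (∑ v ∈ X.erase P, Finsupp.single v (1 : ℤ))) = 1) :
    Module.finrank K ↥(riemannRochSpace (∑ v ∈ X, Finsupp.single v (1 : ℤ))) = 2 := by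
  have hsum : (∑ v ∈ X, Finsupp.single v (1 : ℤ) : Divisor K F) =
      ∑ v ∈ X.erase P, Finsupp.single v (1 : ℤ) + Finsupp.single P (1 : ℤ) := by
    rw [Finset.sum_erase_eq_sub hP, sub_add_cancel]
  have h1 := (LStep.step htr (∑ v ∈ X.erase P, Finsupp.single v (1 : ℤ)) P (finite_L htr _)).2
  rw [← hsum, h] at h1
  have h2 := riemann_inequality htr (∑ v ∈ X, Finsupp.single v (1 : ℤ))
  rw [NonSpecialStep.degree_sum_single htr, hcard] at h2
  push_cast at h2
  omega

/-- Conversely (for ANY finite set `X` of places): `l(∑ X) = 2` gives a point `P ∈ X` with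
`l(∑ (X.erase P)) = 1`.  Otherwise `L(∑ X - P) = L(∑ X)` for every `P ∈ X`, so no function of
`L(∑ X)` has a pole, `L(∑ X) = L(0) = K`. -/
theorem exists_erase_of_finrank_eq_two [DecidableEq (Place K F)] (htr : Algebra.trdeg K F = 1)
    (X : Finset (Place K F))
    (hX : Module.finrank K ↥(riemannRochSpace (∑ v ∈ X, Finsupp.single v (1 : ℤ))) = 2) :
    ∃ P ∈ X,
      Module.finrank K ↥(riemannRochSpace (∑ v ∈ X.erase P, Finsupp.single v (1 : ℤ))) = 1 := by
  by_contra hcon
  have := finite_L htr (∑ v ∈ X, Finsupp.single v (1 : ℤ))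
  have heq : ∀ P ∈ X, riemannRochSpace (∑ v ∈ X.erase P, Finsupp.single v (1 : ℤ)) =
      riemannRochSpace (∑ v ∈ X, Finsupp.single v (1 : ℤ)) := by
    intro P hP
    have hle : riemannRochSpace (∑ v ∈ X.erase P, Finsupp.single v (1 : ℤ)) ≤
        riemannRochSpace (∑ v ∈ X, Finsupp.single v (1 : ℤ)) :=
      L_mono (Finset.sum_le_sum_of_subset_of_nonneg (Finset.erase_subset P X)
        (fun v _ _ => NonSpecialStep.single_one_nonneg v))
    have h0 : riemannRochSpace (0 : Divisor K F) ≤
        riemannRochSpace (∑ v ∈ X.erase P, Finsupp.single v (1 : ℤ)) :=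
      L_mono (NonSpecialStep.sum_single_nonneg _)
    have := finite_L htr (∑ v ∈ X.erase P, Finsupp.single v (1 : ℤ))
    have h1 := Submodule.finrank_mono hle
    have h2 := Submodule.finrank_mono h0
    rw [NonSpecialStep.finrank_L_zero htr] at h2
    have h3 : Module.finrank K
        ↥(riemannRochSpace (∑ v ∈ X.erase P, Finsupp.single v (1 : ℤ))) ≠ 1 :=
      fun h => hcon ⟨P, hP, h⟩
    exact Submodule.eq_of_le_of_finrank_eq hle (by omega)
  have hle0 : riemannRochSpace (∑ v ∈ X, Finsupp.single v (1 : ℤ)) ≤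
      riemannRochSpace (0 : Divisor K F) := by
    intro f hf
    by_cases hf0 : f = 0
    · rw [hf0]
      exact Submodule.zero_mem _
    · rw [mem_L_of_ne_zero hf0]
      intro v
      rw [Finsupp.zero_apply, neg_zero]
      by_cases hv : v ∈ X
      · have hf' : f ∈ riemannRochSpace (∑ w ∈ X.erase v, Finsupp.single w (1 : ℤ)) := by
          rw [heq v hv]
          exact hf
        have h := (mem_L_of_ne_zero hf0).mp hf' v
        rw [NonSpecialStep.sum_single_apply_of_notMem _ (Finset.notMem_erase v X), neg_zero] at h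
        exact h
      · have h := (mem_L_of_ne_zero hf0).mp hf v
        rw [NonSpecialStep.sum_single_apply_of_notMem _ hv, neg_zero] at h
        exact h
  have := finite_L htr (0 : Divisor K F)
  have h4 := Submodule.finrank_mono hle0
  rw [NonSpecialStep.finrank_L_zero htr, hX] at h4
  omega

/-- **(M5a)**, literal of the strand M ledger: a non-special set `E` of `gR` places stays
non-special when any one of its points is replaced by a general place `Z`. -/
theorem exists_finset_forall_swap (htr : Algebra.trdeg K F = 1) (E : Finset (Place K F))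
    (hcard : E.card = gR K F)
    (hE : Module.finrank K ↥(riemannRochSpace (∑ v ∈ E, Finsupp.single v (1 : ℤ))) = 1) :
    ∃ S : Finset (Place K F), E ⊆ S ∧ ∀ Z : Place K F, Z ∉ S → ∀ P ∈ E,
      Module.finrank K ↥(riemannRochSpace
        (∑ v ∈ E, Finsupp.single v (1 : ℤ) - Finsupp.single P 1 + Finsupp.single Z 1)) = 1 := by
  classical
  obtain ⟨S, hES, hS⟩ := swap htr E hcard hE
  refine ⟨S, hES, fun Z hZ P hP => ?_⟩
  have hZer : Z ∉ E.erase P := fun h => hZ (hES (Finset.mem_of_mem_erase h))
  have h := hS Z hZ P hP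
  rw [Finset.sum_insert hZer, Finset.sum_erase_eq_sub hP,
    add_comm (Finsupp.single Z (1 : ℤ)) _] at h
  exact h

/-- **(M5b)**, literal of the strand M ledger: for `gR + 1` distinct places, `l(∑ X) = 2` iff
some `gR` of them are non-special. -/
theorem finrank_L_eq_two_iff (htr : Algebra.trdeg K F = 1) (X : Finset (Place K F))
    (hcard : X.card = gR K F + 1) :
    Module.finrank K ↥(riemannRochSpace (∑ v ∈ X, Finsupp.single v (1 : ℤ))) = 2 ↔
      ∃ x ∈ X, Module.finrank K ↥(riemannRochSpace
        (∑ v ∈ X, Finsupp.single v (1 : ℤ) - Finsupp.single x 1)) = 1 := by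
  classical
  constructor
  · intro hX
    obtain ⟨P, hP, h⟩ := exists_erase_of_finrank_eq_two htr X hX
    refine ⟨P, hP, ?_⟩
    rw [← Finset.sum_erase_eq_sub hP]
    exact h
  · rintro ⟨x, hx, h⟩
    rw [← Finset.sum_erase_eq_sub hx] at h
    exact finrank_eq_two_of_erase htr X hcard hx h

end Fermat.Agent.S27.M.GP1
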