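import Mathlib
import Fermat.Agent.S27.M.Fibre
import Fermat.Agent.S27.L.Defs
import Fermat.Agent.S27.C.Cen

/-!
# Program PJ (statement S27), strand M: the fibre facts in the shape of the assembly of strand G

`G/Asm.exists_curves` asks, for a configuration with the points `ρ z : F →ₐ[K] M`:

* `hfibG`, `hfibF` : for every label `z` and every place `A` of `F` the places `w` of `M` with
  centre `A` along `ρ z` are finite, at most `finrankAlong K (ρ z)` in number
  (`fib_le`, for the centres `L.cen` of strand L; `fib_le_cen` for `C.Cen.cen`);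
* the first half of `hgen` : off a finite set `Bad` of places of `F` these fibres are full
  (`exists_bad_forall_full`).  For the second half (propagation of goodness) the version
  `exists_bad_forall_full_avoid` also gives: every place `w` over `A ∉ Bad` along any of the points
  is unramified and avoids a prescribed finite set `S` of places of `M` (the zeros and poles of
  the finitely many non-zero elements of `M` whose non-vanishing expresses goodness), and `Bad`
  contains a prescribed finite set of places of `F`.

All statements are in the vocabulary `L.cen` (`= Loc2.centre`, by unfolding, `= C.Cen.cen`).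
-/

set_option autoImplicit false
set_option linter.unusedSectionVars false
set_option linter.style.haveILetI false

open AlgebraicCurve

namespace Fermat.Agent.S27.M.FibreAsm

open Fermat.Agent Fermat.Agent.S17 Fermat.Agent.S17.HB

variable {K F M : Type*} [Field K] [Field F] [Field M] [Algebra K F] [Algebra K M]
variable [IsAlgClosed K] [CharZero K] [Algebra.EssFiniteType K F] [Algebra.EssFiniteType K M]

/-- The centres of strand L and of strand C are the same. -/
theorem cen_eq_cen (htrF : Algebra.trdeg K F = 1) (htrM : Algebra.trdeg K M = 1)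
    (ρ : F →ₐ[K] M) (w : Place K M) : S27.L.cen htrF htrM ρ w = S27.C.Cen.cen htrF htrM ρ w :=
  rfl

/-- The fibre of `A` along `ρ`, as a set of places of `M`, is the Prelude's `fiberAlong`. -/
theorem setOf_cen_eq (htrF : Algebra.trdeg K F = 1) (htrM : Algebra.trdeg K M = 1)
    (ρ : F →ₐ[K] M) (A : Place K F) :
    haveI : HasPrincipalDivisors K M := Lib.FFNorm.hasPrincipalDivisors htrM
    {w : Place K M | S27.L.cen htrF htrM ρ w = A}
      = ↑(Place.fiberAlong ρ (Loc2.algHom_isIntegral htrF htrM ρ) A) := by
  haveI : HasPrincipalDivisors K M := Lib.FFNorm.hasPrincipalDivisors htrM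
  ext w
  rw [Set.mem_ofPred_eq, Finset.mem_coe, Place.mem_fiberAlong]
  rfl

/-- **`hfibG` / `hfibF`.** The places of `M` with centre `A` along `ρ` are finite, at most
`[M : ρ F]` in number - at EVERY place `A` of `F`. -/
theorem fib_le (htrF : Algebra.trdeg K F = 1) (htrM : Algebra.trdeg K M = 1)
    (ρ : F →ₐ[K] M) (A : Place K F) :
    {w : Place K M | S27.L.cen htrF htrM ρ w = A}.Finite ∧
      {w : Place K M | S27.L.cen htrF htrM ρ w = A}.ncard ≤ finrankAlong K ρ := by
  haveI : HasPrincipalDivisors K M := Lib.FFNorm.hasPrincipalDivisors htrM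
  rw [setOf_cen_eq htrF htrM ρ A]
  refine ⟨Finset.finite_toSet _, ?_⟩
  rw [Set.ncard_coe_finset]
  exact Fibre.card_fiberAlong_le htrF htrM ρ _ A

/-- `fib_le` for the centres of strand C. -/
theorem fib_le_cen (htrF : Algebra.trdeg K F = 1) (htrM : Algebra.trdeg K M = 1)
    (ρ : F →ₐ[K] M) (A : Place K F) :
    {w : Place K M | S27.C.Cen.cen htrF htrM ρ w = A}.Finite ∧
      {w : Place K M | S27.C.Cen.cen htrF htrM ρ w = A}.ncard ≤ finrankAlong K ρ :=
  fib_le htrF htrM ρ A

/-- **The general fibre** (first half of `hgen`, with the two avoidances needed for the second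
half): for a finite family of points `ρ z`, a finite set `S` of places of `M` and a finite set
`S₀` of places of `F`, there is a finite set `Bad ⊇ S₀` of places of `F` such that for `A ∉ Bad`
and every label `z` the fibre of `A` along `ρ z` is full, unramified and disjoint from `S`. -/
theorem exists_bad_forall_full_avoid (htrF : Algebra.trdeg K F = 1)
    (htrM : Algebra.trdeg K M = 1) {ι : Type*} [Finite ι] (ρ : ι → (F →ₐ[K] M))
    (S : Set (Place K M)) (hS : S.Finite) (S₀ : Finset (Place K F)) :
    ∃ Bad : Finset (Place K F), S₀ ⊆ Bad ∧ ∀ A : Place K F, A ∉ Bad → ∀ z : ι,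
      finrankAlong K (ρ z) ≤ {w : Place K M | S27.L.cen htrF htrM (ρ z) w = A}.ncard ∧
      ∀ w : Place K M, S27.L.cen htrF htrM (ρ z) w = A → w ∉ S ∧ Loc2.ram (ρ z) w = 1 := by
  classical
  cases nonempty_fintype ι
  obtain ⟨S₁, hS₁⟩ := Fibre.exists_finset_forall_ncard_fibre htrF htrM ρ
  obtain ⟨S₂, hS₂⟩ := Fibre.exists_finset_forall_unramified htrF htrM ρ
  -- the centres of the places of `S` along all the points
  set S₃ : Finset (Place K F) :=
    Finset.univ.biUnion fun z : ι => hS.toFinset.image fun w => S27.L.cen htrF htrM (ρ z) w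
    with hS₃
  refine ⟨S₀ ∪ S₁ ∪ S₂ ∪ S₃, ?_, ?_⟩
  · intro A hA
    simp only [Finset.mem_union]
    exact Or.inl (Or.inl (Or.inl hA))
  · intro A hA z
    simp only [Finset.mem_union, not_or] at hA
    obtain ⟨⟨⟨-, hA1⟩, hA2⟩, hA3⟩ := hA
    refine ⟨le_of_eq (hS₁ A hA1 z).symm, fun w hw => ⟨fun hwS => hA3 ?_, hS₂ A hA2 z w hw⟩⟩
    rw [hS₃, Finset.mem_biUnion]
    exact ⟨z, Finset.mem_univ z, Finset.mem_image.mpr ⟨w, hS.mem_toFinset.mpr hwS, hw⟩⟩

/-- **The general fibre**, plain form: off a finite set of places of `F` every fibre along every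
point is full and unramified. -/
theorem exists_bad_forall_full (htrF : Algebra.trdeg K F = 1)
    (htrM : Algebra.trdeg K M = 1) {ι : Type*} [Finite ι] (ρ : ι → (F →ₐ[K] M)) :
    ∃ Bad : Finset (Place K F), ∀ A : Place K F, A ∉ Bad → ∀ z : ι,
      finrankAlong K (ρ z) ≤ {w : Place K M | S27.L.cen htrF htrM (ρ z) w = A}.ncard ∧
      ∀ w : Place K M, S27.L.cen htrF htrM (ρ z) w = A → Loc2.ram (ρ z) w = 1 := by
  obtain ⟨Bad, -, hBad⟩ :=
    exists_bad_forall_full_avoid htrF htrM ρ (∅ : Set (Place K M)) Set.finite_empty ∅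
  exact ⟨Bad, fun A hA z => ⟨(hBad A hA z).1, fun w hw => ((hBad A hA z).2 w hw).2⟩⟩

/-- The places of `M` at which a given non-zero element has a zero or a pole, or at which one of
finitely many given non-zero elements has, form a finite set (the set `S` to feed
`exists_bad_forall_full_avoid`). -/
theorem finite_ord_ne_zero (htrM : Algebra.trdeg K M = 1) {κ : Type*} [Finite κ] (f : κ → M)
    (hf : ∀ k, f k ≠ 0) : {w : Place K M | ∃ k, w.ord (f k) ≠ 0}.Finite := by
  have h : {w : Place K M | ∃ k, w.ord (f k) ≠ 0} = ⋃ k, {w : Place K M | w.ord (f k) ≠ 0} := by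
    ext w
    simp
  rw [h]
  exact Set.finite_iUnion fun k => S24.FF.support_ord_finite htrM (hf k)

end Fermat.Agent.S27.M.FibreAsm
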