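/-
Program PJ (statement S27), strand M (curve-level ends), leaf M4: effective canonical sections
in general position.

`F / K` is a function field of one variable over an algebraically closed field of characteristic
zero, `gR` its genus (Riemann's constant), `P` a non-empty set of `e` places with `l(∑ P) = 1`
(the points of `P` impose independent conditions on the canonical system) and `T` a finite set of
places to be avoided.

* `exists_general_points` : `gR - e` further places `D`, off `T` and `P`, with `l(∑ D + ∑ P) = 1`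
  and `l(∑ D + x) = 1` for every `x ∈ T` (greedy choice, Riemann's theorem in large degree).
* `exists_effective_canonical_basis` : an EFFECTIVE divisor `W'` of degree `gR + e - 2` with
  `W' = 0` on `T` and on `P`, and a basis `u : Fin e → F` of `L(W')` no non-zero `K`-combination
  of which vanishes at all points of `P` (the value matrix `[u b (x)]`, `x ∈ P`, is invertible).
  Here `W' = W₀ - ∑ D`, `W₀ = W + div u₀` an effective canonical divisor through `D` without
  points on `T ∪ P`.
-/
import Mathlib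
import Fermat.Prelude.Def_AlgebraicCurve_Repartitions
import Fermat.Agent.S17.R.LSpace
import Fermat.Agent.S17.R.LStep
import Fermat.Agent.S17.R.Riemann
import Fermat.Agent.S17.R.RiemannRoch
import Fermat.Agent.S17.R.NonSpecialStep
import Fermat.Agent.S17.R.Places
import Fermat.Agent.S17.R.PrimElt
import Fermat.Agent.S17.R.GenericPos
import Fermat.Agent.S17.R.CanonicalOff

set_option autoImplicit false

namespace Fermat.Agent.S27.M.CanEff

open AlgebraicCurve Fermat.Agent.S17.R

variable {K F : Type*} [Field K] [Field F] [Algebra K F]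
variable [IsAlgClosed K] [CharZero K] [Algebra.EssFiniteType K F]

/-- Monotonicity of `l`. -/
theorem finrank_L_mono (htr : Algebra.trdeg K F = 1) {D D' : Divisor K F} (h : D ≤ D') :
    Module.finrank K ↥(riemannRochSpace D) ≤ Module.finrank K ↥(riemannRochSpace D') := by
  haveI : Module.Finite K ↥(riemannRochSpace D') := finite_L htr D'
  exact Submodule.finrank_mono (L_mono h)

/-- An effective divisor below a divisor with `l = 1` has `l = 1`. -/
theorem finrank_L_eq_one_of_le (htr : Algebra.trdeg K F = 1) {D D' : Divisor K F} (h0 : 0 ≤ D)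
    (h : D ≤ D') (h1 : Module.finrank K ↥(riemannRochSpace D') = 1) :
    Module.finrank K ↥(riemannRochSpace D) = 1 := by
  have h2 := finrank_L_mono htr h0
  rw [NonSpecialStep.finrank_L_zero htr] at h2
  have h3 := finrank_L_mono htr h
  omega

/-- A point of a finite set lies below the sum of the set. -/
theorem single_le_sum {s : Finset (Place K F)} {x : Place K F} (hx : x ∈ s) :
    (Finsupp.single x (1 : ℤ) : Divisor K F) ≤ ∑ v ∈ s, Finsupp.single v (1 : ℤ) :=
  Finset.single_le_sum (f := fun v => (Finsupp.single v (1 : ℤ) : Divisor K F))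
    (fun v _ => NonSpecialStep.single_one_nonneg v) hx

/-- The greedy choice of the general points `D`. -/
theorem exists_general_points (htr : Algebra.trdeg K F = 1) (T P : Finset (Place K F))
    (hPpos : 0 < P.card)
    (hP : Module.finrank K ↥(riemannRochSpace (∑ v ∈ P, Finsupp.single v (1 : ℤ))) = 1) :
    ∀ j : ℕ, j + P.card ≤ gR K F → ∃ D : Finset (Place K F), D.card = j ∧
      Disjoint D T ∧ Disjoint D P ∧
      Module.finrank K ↥(riemannRochSpace
        (∑ v ∈ D, Finsupp.single v (1 : ℤ) + ∑ v ∈ P, Finsupp.single v (1 : ℤ))) = 1 ∧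
      ∀ x ∈ T, Module.finrank K ↥(riemannRochSpace
        (∑ v ∈ D, Finsupp.single v (1 : ℤ) + Finsupp.single x (1 : ℤ))) = 1 := by
  classical
  obtain ⟨c, hc⟩ := riemann_eq_of_large (K := K) (F := F) htr
  intro j
  induction j with
  | zero =>
    intro hj
    have hg : 0 < gR K F := by omega
    refine ⟨∅, Finset.card_empty, Finset.disjoint_empty_left T, Finset.disjoint_empty_left P,
      ?_, ?_⟩
    · rw [Finset.sum_empty, zero_add]
      exact hP
    · intro x _
      rw [Finset.sum_empty, zero_add]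
      exact GenericPos.finrank_L_single htr hg x
  | succ j ih =>
    intro hj
    obtain ⟨D, hcard, hDT, hDP, h1, hx⟩ := ih (by omega)
    -- the exceptional sets
    have hA0 : (0 : Divisor K F) ≤
        ∑ v ∈ D, Finsupp.single v (1 : ℤ) + ∑ v ∈ P, Finsupp.single v (1 : ℤ) :=
      add_nonneg (NonSpecialStep.sum_single_nonneg D) (NonSpecialStep.sum_single_nonneg P)
    have hfin0 := (nonspecial_step htr hc hA0 h1 (by
      rw [map_add, NonSpecialStep.degree_sum_single htr, NonSpecialStep.degree_sum_single htr,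
        hcard]
      have h4 : ((j + 1 + P.card : ℕ) : ℤ) ≤ (gR K F : ℤ) := by exact_mod_cast hj
      push_cast at h4
      omega)).1
    have hfinx : ∀ x ∈ T, {E : Place K F |
        (∑ v ∈ D, Finsupp.single v (1 : ℤ) + Finsupp.single x (1 : ℤ) : Divisor K F) E = 0 ∧
        Module.finrank K ↥(riemannRochSpace
          (∑ v ∈ D, Finsupp.single v (1 : ℤ) + Finsupp.single x (1 : ℤ) +
            Finsupp.single E (1 : ℤ))) ≠ 1}.Finite := by
      intro x hxT
      refine (nonspecial_step htr hc (add_nonneg (NonSpecialStep.sum_single_nonneg D)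
        (NonSpecialStep.single_one_nonneg x)) (hx x hxT) ?_).1
      rw [map_add, NonSpecialStep.degree_sum_single htr, NonSpecialStep.degree_single_one htr,
        hcard]
      have h4 : ((j + 1 + P.card : ℕ) : ℤ) ≤ (gR K F : ℤ) := by exact_mod_cast hj
      have h5 : (1 : ℤ) ≤ (P.card : ℤ) := by exact_mod_cast hPpos
      push_cast at h4
      omega
    have hfinU : (⋃ x ∈ (T : Set (Place K F)), {E : Place K F |
        (∑ v ∈ D, Finsupp.single v (1 : ℤ) + Finsupp.single x (1 : ℤ) : Divisor K F) E = 0 ∧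
        Module.finrank K ↥(riemannRochSpace
          (∑ v ∈ D, Finsupp.single v (1 : ℤ) + Finsupp.single x (1 : ℤ) +
            Finsupp.single E (1 : ℤ))) ≠ 1}).Finite :=
      Set.Finite.biUnion (Finset.finite_toSet T) fun x hxT => hfinx x (Finset.mem_coe.mp hxT)
    obtain ⟨Q, hQ⟩ := exists_place_notMem htr
      (hfin0.toFinset ∪ hfinU.toFinset ∪ T ∪ P ∪ D)
    simp only [Finset.mem_union, not_or] at hQ
    obtain ⟨⟨⟨⟨hQ0, hQU⟩, hQT⟩, hQP⟩, hQD⟩ := hQ
    have hsum : (∑ v ∈ insert Q D, Finsupp.single v (1 : ℤ) : Divisor K F) =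
        ∑ v ∈ D, Finsupp.single v (1 : ℤ) + Finsupp.single Q (1 : ℤ) := by
      rw [Finset.sum_insert hQD, add_comm]
    refine ⟨insert Q D, ?_, ?_, ?_, ?_, ?_⟩
    · rw [Finset.card_insert_of_notMem hQD, hcard]
    · exact Finset.disjoint_insert_left.mpr ⟨hQT, hDT⟩
    · exact Finset.disjoint_insert_left.mpr ⟨hQP, hDP⟩
    · rw [hsum, add_right_comm]
      by_contra hne
      apply hQ0
      rw [Set.Finite.mem_toFinset]
      refine ⟨?_, hne⟩
      rw [Finsupp.add_apply, NonSpecialStep.sum_single_apply_of_notMem D hQD,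
        NonSpecialStep.sum_single_apply_of_notMem P hQP, add_zero]
    · intro x hxT
      rw [hsum, add_right_comm]
      by_contra hne
      apply hQU
      rw [Set.Finite.mem_toFinset]
      refine Set.mem_biUnion (Finset.mem_coe.mpr hxT) ⟨?_, hne⟩
      have hQx : Q ≠ x := fun h => hQT (h ▸ hxT)
      rw [Finsupp.add_apply, NonSpecialStep.sum_single_apply_of_notMem D hQD,
        Finsupp.single_eq_of_ne hQx, add_zero]

/-- **Leaf M4**: an effective divisor `W'` of degree `gR + e - 2` off `T ∪ P` with `l(W') = e`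
and a basis `u` of `L(W')` whose value matrix at the `e` points of the non-special set `P` is
invertible (`W' = W₀ - D`, `W₀` an effective canonical divisor through `gR - e` general
points `D`). -/
theorem exists_effective_canonical_basis (htr : Algebra.trdeg K F = 1)
    (T P : Finset (Place K F)) (hPpos : 0 < P.card)
    (hP : Module.finrank K ↥(riemannRochSpace (∑ v ∈ P, Finsupp.single v (1 : ℤ))) = 1) :
    ∃ (W' : Divisor K F) (u : Fin P.card → F),
      0 ≤ W' ∧ Divisor.degree W' = (gR K F : ℤ) + P.card - 2 ∧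
      (∀ v ∈ T, W' v = 0) ∧ (∀ v ∈ P, W' v = 0) ∧
      LinearIndependent K u ∧ Submodule.span K (Set.range u) = riemannRochSpace W' ∧
      ∀ c : Fin P.card → K,
        (∀ v ∈ P, ∑ b, c b • u b = 0 ∨ 0 < v.ord (∑ b, c b • u b)) → c = 0 := by
  classical
  -- `e ≤ gR`
  have hle : P.card ≤ gR K F := by
    have h := riemann_inequality htr (∑ v ∈ P, Finsupp.single v (1 : ℤ))
    rw [NonSpecialStep.degree_sum_single htr, hP] at h
    have h2 : (P.card : ℤ) ≤ (gR K F : ℤ) := by
      push_cast at h
      linarith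
    exact_mod_cast h2
  have hcast : ((gR K F - P.card : ℕ) : ℤ) = (gR K F : ℤ) - (P.card : ℤ) := Nat.cast_sub hle
  obtain ⟨D, hDcard, hDT, hDP, hDP1, hDx⟩ :=
    exists_general_points htr T P hPpos hP (gR K F - P.card) (by omega)
  obtain ⟨W, hW, hRR⟩ := riemann_roch (K := K) (F := F) htr
  have hSD0 : (0 : Divisor K F) ≤ ∑ v ∈ D, Finsupp.single v (1 : ℤ) :=
    NonSpecialStep.sum_single_nonneg D
  have hSP0 : (0 : Divisor K F) ≤ ∑ v ∈ P, Finsupp.single v (1 : ℤ) :=
    NonSpecialStep.sum_single_nonneg P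
  -- `l(∑ D) = 1`
  have hSD1 : Module.finrank K ↥(riemannRochSpace (∑ v ∈ D, Finsupp.single v (1 : ℤ))) = 1 :=
    finrank_L_eq_one_of_le htr hSD0 (le_add_of_nonneg_right hSP0) hDP1
  -- `l(W - ∑ D) = e`
  have hV : Module.finrank K ↥(riemannRochSpace (W - ∑ v ∈ D, Finsupp.single v (1 : ℤ))) =
      P.card := by
    have h := hRR (∑ v ∈ D, Finsupp.single v (1 : ℤ))
    rw [hSD1, NonSpecialStep.degree_sum_single htr, hDcard, hcast] at h
    have h2 : (Module.finrank K ↥(riemannRochSpace
        (W - ∑ v ∈ D, Finsupp.single v (1 : ℤ))) : ℤ) = (P.card : ℤ) := by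
      push_cast at h
      linarith
    exact_mod_cast h2
  -- `l(∑ D + x) = 1` for `x ∈ T ∪ P`
  have hx1 : ∀ x : Place K F, x ∈ T ∨ x ∈ P → Module.finrank K ↥(riemannRochSpace
      (∑ v ∈ D, Finsupp.single v (1 : ℤ) + Finsupp.single x (1 : ℤ))) = 1 := by
    rintro x (hx | hx)
    · exact hDx x hx
    · exact finrank_L_eq_one_of_le htr
        (add_nonneg hSD0 (NonSpecialStep.single_one_nonneg x))
        (by gcongr; exact single_le_sum hx) hDP1
  -- the subspaces to avoid are proper
  have hVx : ∀ x : Place K F, x ∈ T ∨ x ∈ P →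
      ¬ riemannRochSpace (W - ∑ v ∈ D, Finsupp.single v (1 : ℤ)) ≤
        riemannRochSpace (W - (∑ v ∈ D, Finsupp.single v (1 : ℤ) + Finsupp.single x (1 : ℤ))) := by
    intro x hx hle'
    have h := hRR (∑ v ∈ D, Finsupp.single v (1 : ℤ) + Finsupp.single x (1 : ℤ))
    rw [hx1 x hx, map_add, NonSpecialStep.degree_sum_single htr,
      NonSpecialStep.degree_single_one htr, hDcard, hcast] at h
    haveI : Module.Finite K ↥(riemannRochSpace
        (W - (∑ v ∈ D, Finsupp.single v (1 : ℤ) + Finsupp.single x (1 : ℤ)))) := finite_L htr _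
    have h3 := Submodule.finrank_mono hle'
    rw [hV] at h3
    have h4 : (P.card : ℤ) ≤ (Module.finrank K ↥(riemannRochSpace
        (W - (∑ v ∈ D, Finsupp.single v (1 : ℤ) + Finsupp.single x (1 : ℤ)))) : ℤ) := by
      exact_mod_cast h3
    push_cast at h
    linarith
  -- a section off all of them
  obtain ⟨u₀, hu₀V, hu₀⟩ := PrimElt.exists_mem_forall_notMem (k := K)
    (riemannRochSpace (W - ∑ v ∈ D, Finsupp.single v (1 : ℤ)))
    (ι := {x : Place K F // x ∈ T ∪ P})
    (fun x => riemannRochSpace
      (W - (∑ v ∈ D, Finsupp.single v (1 : ℤ) + Finsupp.single x.1 (1 : ℤ))))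
    (fun x => hVx x.1 (Finset.mem_union.mp x.2))
  obtain ⟨x₀, hx₀⟩ := Finset.card_pos.mp hPpos
  have hu₀ne : u₀ ≠ 0 := by
    rintro rfl
    exact hu₀ ⟨x₀, Finset.mem_union_right T hx₀⟩ (Submodule.zero_mem _)
  -- the effective divisor
  obtain ⟨W', hW'⟩ : ∃ W' : Divisor K F,
      W' = W - ∑ v ∈ D, Finsupp.single v (1 : ℤ) + divOf K u₀ := ⟨_, rfl⟩
  have hW'0 : 0 ≤ W' := by
    rw [hW']
    exact add_divOf_nonneg htr hu₀ne hu₀V
  have hW'deg : Divisor.degree W' = (gR K F : ℤ) + P.card - 2 := by
    rw [hW', map_add, map_sub, degree_divOf htr, add_zero, hW,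
      NonSpecialStep.degree_sum_single htr, hDcard, hcast]
    ring
  have hW'x : ∀ x : Place K F, x ∈ T ∨ x ∈ P → W' x = 0 := by
    intro x hx
    by_contra hne
    have hpos : 1 ≤ W' x := by
      have h := Finsupp.le_def.mp hW'0 x
      rw [Finsupp.zero_apply] at h
      omega
    apply hu₀ ⟨x, Finset.mem_union.mpr hx⟩
    apply mem_L_of_add_divOf_nonneg htr
    rw [Finsupp.le_def]
    intro v
    have hv := Finsupp.le_def.mp hW'0 v
    rw [Finsupp.zero_apply] at hv ⊢
    have heq : (W - (∑ v ∈ D, Finsupp.single v (1 : ℤ) + Finsupp.single x (1 : ℤ)) +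
        divOf K u₀) v = W' v - (Finsupp.single x (1 : ℤ) : Divisor K F) v := by
      rw [hW']
      simp only [Finsupp.add_apply, Finsupp.sub_apply]
      ring
    rw [heq]
    by_cases hvx : v = x
    · rw [hvx, Finsupp.single_eq_same]
      omega
    · rw [Finsupp.single_eq_of_ne hvx]
      omega
  -- `l(W') = e`
  have hprin : W' - (W - ∑ v ∈ D, Finsupp.single v (1 : ℤ)) ∈
      Divisor.principal (K := K) (F := F) := by
    have h : W' - (W - ∑ v ∈ D, Finsupp.single v (1 : ℤ)) = divOf K u₀ := by
      rw [hW']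
      abel
    rw [h]
    exact divOf_mem_principal htr hu₀ne
  have hfr : Module.finrank K ↥(riemannRochSpace W') = P.card :=
    (finrank_L_eq_of_principal htr hprin).trans hV
  haveI : Module.Finite K ↥(riemannRochSpace W') := finite_L htr W'
  let B : Module.Basis (Fin P.card) K ↥(riemannRochSpace W') :=
    Module.finBasisOfFinrankEq K _ hfr
  have hli : LinearIndependent K (fun b => ((B b : ↥(riemannRochSpace W')) : F)) :=
    B.linearIndependent.map' (riemannRochSpace W').subtype (Submodule.ker_subtype _)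
  have hspan : Submodule.span K (Set.range fun b => ((B b : ↥(riemannRochSpace W')) : F)) =
      riemannRochSpace W' := by
    have h1 : (Set.range fun b => ((B b : ↥(riemannRochSpace W')) : F)) =
        (riemannRochSpace W').subtype '' Set.range B := by
      rw [← Set.range_comp]
      rfl
    rw [h1, Submodule.span_image, B.span_eq, Submodule.map_subtype_top]
  refine ⟨W', fun b => ((B b : ↥(riemannRochSpace W')) : F), hW'0, hW'deg,
    fun v hv => hW'x v (Or.inl hv), fun v hv => hW'x v (Or.inr hv), hli, hspan, ?_⟩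
  intro c hc
  obtain ⟨f, hf⟩ : ∃ f : F, f = ∑ b, c b • ((B b : ↥(riemannRochSpace W')) : F) := ⟨_, rfl⟩
  rw [← hf] at hc
  have hfW : f ∈ riemannRochSpace W' := by
    rw [hf]
    exact Submodule.sum_mem _ fun b _ => Submodule.smul_mem _ _ (B b).2
  -- `l(W' - ∑ P) = 0`
  have hdegDP : Divisor.degree (∑ v ∈ D, Finsupp.single v (1 : ℤ) +
      ∑ v ∈ P, Finsupp.single v (1 : ℤ) : Divisor K F) = (gR K F : ℤ) := by
    rw [map_add, NonSpecialStep.degree_sum_single htr, NonSpecialStep.degree_sum_single htr,
      hDcard, hcast]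
    ring
  have h0 := CanonicalOff.finrank_L_canonical_sub htr hRR hDP1 hdegDP
  have hprin2 : (W' - ∑ v ∈ P, Finsupp.single v (1 : ℤ)) -
      (W - (∑ v ∈ D, Finsupp.single v (1 : ℤ) + ∑ v ∈ P, Finsupp.single v (1 : ℤ))) ∈
      Divisor.principal (K := K) (F := F) := by
    have h : (W' - ∑ v ∈ P, Finsupp.single v (1 : ℤ)) -
        (W - (∑ v ∈ D, Finsupp.single v (1 : ℤ) + ∑ v ∈ P, Finsupp.single v (1 : ℤ))) =
        divOf K u₀ := by
      rw [hW']
      abel
    rw [h]
    exact divOf_mem_principal htr hu₀ne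
  have h0' : Module.finrank K ↥(riemannRochSpace (W' - ∑ v ∈ P, Finsupp.single v (1 : ℤ))) = 0 :=
    (finrank_L_eq_of_principal htr hprin2).trans h0
  haveI : Module.Finite K ↥(riemannRochSpace (W' - ∑ v ∈ P, Finsupp.single v (1 : ℤ))) :=
    finite_L htr _
  have hbot : riemannRochSpace (W' - ∑ v ∈ P, Finsupp.single v (1 : ℤ)) = ⊥ :=
    Submodule.finrank_eq_zero.mp h0'
  have hf0 : f = 0 := by
    by_contra hne
    have hmem : f ∈ riemannRochSpace (W' - ∑ v ∈ P, Finsupp.single v (1 : ℤ)) := by
      rw [mem_L_of_ne_zero hne]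
      intro v
      have h1 := (mem_L_of_ne_zero hne).mp hfW v
      rw [Finsupp.sub_apply]
      by_cases hv : v ∈ P
      · have h2 := (hc v hv).resolve_left hne
        rw [CanonicalOff.sum_single_apply_of_mem hv, hW'x v (Or.inr hv)]
        omega
      · rw [NonSpecialStep.sum_single_apply_of_notMem P hv]
        omega
    rw [hbot, Submodule.mem_bot] at hmem
    exact hne hmem
  rw [hf] at hf0
  funext b
  exact Fintype.linearIndependent_iff.mp hli c hf0 b

end Fermat.Agent.S27.M.CanEff
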