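/-
Program PJ (statement S27), strand M (curve-level ends): the special locus of a family of moving
points is finite (the ownerless literal `finite_special` of G LINE #2 (4)).

`F / K`, `M / K` are function fields of one variable over an algebraically closed field of
characteristic zero, `ρ z : F →ₐ[K] M` (`z ∈ s`, `s.card = gR K F`) are moving points of the curve
of `F` over `M`, and `cen htr htrM (ρ z) w` is the centre of `ρ z` at the place `w` of `M`.

* `exists_finset_nonspecial` / `finite_special` : if at ONE place `w₀` the `gR` centres are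
  pairwise distinct and non-special (`l(∑ centres) = 1`), then the same holds at all but finitely
  many places `w` of `M`;
* `finite_special_erase` : the form consumed by the assembly (`s = univ.erase z`).

Proof.  Let `(W, u)` be a canonical divisor off the centres of `w₀` with a basis `u` of `L(W)`
(`R.CanonicalOff.exists_canonical_basis`) and `Δ = det [ρ z (u b)] ∈ M`.
`Δ ≠ 0`: a kernel vector over `M`, normalised at `w₀`, reduces to a non-zero constant vector `c`
with `∑ c b • u b` vanishing at every centre of `w₀`, which the basis property excludes.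
Off the zeros and poles of `Δ` and off the finitely many places with a centre in the support of
`W`: a non-zero `f = ∑ c b • u b ∈ L(W - ∑ centres)` would give `A c ∈ 𝔪_w ^ g`, hence (adjugate)
`Δ ∈ 𝔪_w`; so `L(W - ∑ centres) = ⊥` (sum over the SET of centres) and Riemann–Roch for
`W - ∑ centres` gives `l(∑ centres) = #centres + 1 - gR`, which is `≥ 1`: the centres are
pairwise distinct and non-special.
-/
import Mathlib
import Fermat.Agent.Lib.FFNorm.Value
import Fermat.Agent.S17.R.CanonicalOff
import Fermat.Agent.S27.C.Cen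

set_option autoImplicit false
set_option linter.unusedSectionVars false
set_option linter.style.haveILetI false

open AlgebraicCurve

namespace Fermat.Agent.S27.M.FiniteSpecial

open Fermat.Agent.S17 Fermat.Agent.S17.R Fermat.Agent.S24.FF Fermat.Agent.S27.C.Cen
open scoped Matrix

variable {K F M : Type*} [Field K] [Field F] [Field M] [Algebra K F] [Algebra K M]

/-- If a square matrix over `M` has entries regular at `w` and a determinant that is a unit at
`w`, then no non-zero constant vector is mapped into the maximal ideal of `w`. -/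
theorem eq_zero_of_mulVec_mem {n : ℕ} (w : Place K M) (A : Matrix (Fin n) (Fin n) M)
    (hA : ∀ a b, A a b ∈ w.toValuationSubring) (hdet : A.det ≠ 0) (hord : w.ord A.det = 0)
    (c : Fin n → K)
    (hc : ∀ a, (∑ b, A a b * algebraMap K M (c b)) = 0 ∨
      0 < w.ord (∑ b, A a b * algebraMap K M (c b))) : c = 0 := by
  classical
  let A' : Matrix (Fin n) (Fin n) w.toValuationSubring := fun a b => ⟨A a b, hA a b⟩
  let c' : Fin n → w.toValuationSubring := fun b => algebraMap K w.toValuationSubring (c b)
  have hcoe : ∀ a, (((A' *ᵥ c') a : w.toValuationSubring) : M) =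
      ∑ b, A a b * algebraMap K M (c b) := by
    intro a
    show ((∑ b, A' a b * c' b : w.toValuationSubring) : M) = _
    rw [AddSubmonoidClass.coe_finsetSum]
    rfl
  have hv : ∀ a, (A' *ᵥ c') a ∈ IsLocalRing.maximalIdeal w.toValuationSubring := by
    intro a
    rcases hc a with h | h
    · have h0 : (A' *ᵥ c') a = 0 := Subtype.ext (by rw [hcoe a, h]; rfl)
      rw [h0]
      exact zero_mem _
    · have hne : (((A' *ᵥ c') a : w.toValuationSubring) : M) ≠ 0 := by
        rw [hcoe a]
        intro h0
        rw [h0, Place.ord_zero] at h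
        exact lt_irrefl _ h
      exact (mem_maximalIdeal_iff_ord_pos w _ hne).mpr (by rw [hcoe a]; exact h)
  have hadj : A'.adjugate *ᵥ (A' *ᵥ c') = A'.det • c' := by
    rw [Matrix.mulVec_mulVec, Matrix.adjugate_mul, Matrix.smul_mulVec, Matrix.one_mulVec]
  have hdetmem : ∀ b, A'.det * c' b ∈ IsLocalRing.maximalIdeal w.toValuationSubring := by
    intro b
    have h1 : (A'.adjugate *ᵥ (A' *ᵥ c')) b ∈
        IsLocalRing.maximalIdeal w.toValuationSubring := by
      show (∑ a, A'.adjugate b a * (A' *ᵥ c') a) ∈ _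
      exact Ideal.sum_mem _ fun a _ => Ideal.mul_mem_left _ _ (hv a)
    rw [hadj] at h1
    exact h1
  have hdet' : ((A'.det : w.toValuationSubring) : M) = A.det := by
    exact RingHom.map_det w.toValuationSubring.subtype A'
  funext b
  by_contra hb
  have hunit : IsUnit (c' b) :=
    (IsUnit.mk0 (c b) hb).map (algebraMap K w.toValuationSubring)
  have hmem : A'.det ∈ IsLocalRing.maximalIdeal w.toValuationSubring :=
    (Ideal.mul_unit_mem_iff_mem _ hunit).mp (hdetmem b)
  have hne : ((A'.det : w.toValuationSubring) : M) ≠ 0 := by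
    rw [hdet']
    exact hdet
  have hpos := (mem_maximalIdeal_iff_ord_pos w _ hne).mp hmem
  rw [hdet', hord] at hpos
  exact lt_irrefl _ hpos

/-- A function of `F` whose image under `ρ` vanishes at `w` vanishes at the centre. -/
theorem ord_pos_of_ord_map_pos (htr : Algebra.trdeg K F = 1) (htrM : Algebra.trdeg K M = 1)
    (ρ : F →ₐ[K] M) (w : Place K M) {f : F} (h : 0 < w.ord (ρ f)) :
    0 < (cen htr htrM ρ w).ord f := by
  have hf0 : f ≠ 0 := by
    rintro rfl
    rw [map_zero, Place.ord_zero] at h
    exact lt_irrefl _ h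
  have hmem : f ∈ (cen htr htrM ρ w).toValuationSubring :=
    (mem_cen_iff htr htrM ρ w f).mpr (mem_of_ord_pos w h)
  have h1 := ord_nonneg_of_mem (cen htr htrM ρ w) hmem
  rcases h1.lt_or_eq with h2 | h2
  · exact h2
  · exfalso
    have hinv : f⁻¹ ∈ (cen htr htrM ρ w).toValuationSubring := by
      refine (ord_nonneg_iff (cen htr htrM ρ w) (inv_ne_zero hf0)).mp ?_
      rw [Place.ord_inv, ← h2]
      simp
    have hinv' : ρ f⁻¹ ∈ w.toValuationSubring := (mem_cen_iff htr htrM ρ w f⁻¹).mp hinv
    have h3 := ord_nonneg_of_mem w hinv'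
    rw [map_inv₀, Place.ord_inv] at h3
    omega

/-- The image of a section of `L(W)` is regular at `w` when the centre is off `W`. -/
theorem map_mem_of_mem_L (htr : Algebra.trdeg K F = 1) (htrM : Algebra.trdeg K M = 1)
    (ρ : F →ₐ[K] M) (w : Place K M) {W : Divisor K F} {f : F}
    (hf : f ∈ riemannRochSpace W) (hW : W (cen htr htrM ρ w) = 0) :
    ρ f ∈ w.toValuationSubring := by
  rw [← mem_cen_iff htr htrM ρ w f]
  rcases eq_or_ne f 0 with rfl | h0
  · exact zero_mem _
  · have h := (mem_L_of_ne_zero h0).mp hf (cen htr htrM ρ w)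
    rw [hW, neg_zero] at h
    exact (ord_nonneg_iff _ h0).mp h

/-- The divisor of a finite set of places is effective. -/
theorem sum_single_nonneg (E : Finset (Place K F)) :
    (0 : Divisor K F) ≤ ∑ v ∈ E, Finsupp.single v (1 : ℤ) := by
  classical
  refine Finset.sum_nonneg fun v _ => ?_
  rw [Finsupp.le_def]
  intro x
  rw [Finsupp.single_apply]
  split_ifs <;> simp

section Curve

variable [IsAlgClosed K] [CharZero K] [Algebra.EssFiniteType K F] [Algebra.EssFiniteType K M]

/-- **The special locus is finite** (existence form): if the `gR` centres are pairwise distinct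
and non-special at one place `w₀` of `M`, they are so at all but finitely many places. -/
theorem exists_finset_nonspecial (htr : Algebra.trdeg K F = 1) (htrM : Algebra.trdeg K M = 1)
    {ι : Type*} (ρ : ι → (F →ₐ[K] M)) (s : Finset ι) (hcard : s.card = gR K F)
    (w₀ : Place K M) (hinj : Set.InjOn (fun z => cen htr htrM (ρ z) w₀) ↑s)
    (hns : Module.finrank K ↥(riemannRochSpace
      (∑ z ∈ s, Finsupp.single (cen htr htrM (ρ z) w₀) (1 : ℤ))) = 1) :
    ∃ S : Finset (Place K M), ∀ w, w ∉ S →
      Set.InjOn (fun z => cen htr htrM (ρ z) w) ↑s ∧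
      Module.finrank K ↥(riemannRochSpace
        (∑ z ∈ s, Finsupp.single (cen htr htrM (ρ z) w) (1 : ℤ))) = 1 := by
  classical
  haveI : HasPrincipalDivisors K M := Fermat.Agent.Lib.FFNorm.hasPrincipalDivisors htrM
  -- the canonical basis adapted to the centres at `w₀`
  obtain ⟨E₀, hE₀⟩ : ∃ E₀ : Finset (Place K F),
      E₀ = s.image fun z => cen htr htrM (ρ z) w₀ := ⟨_, rfl⟩
  have hE₀card : E₀.card = gR K F := by
    rw [hE₀, Finset.card_image_of_injOn hinj, hcard]
  have hE₀sum : (∑ v ∈ E₀, Finsupp.single v (1 : ℤ) : Divisor K F) =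
      ∑ z ∈ s, Finsupp.single (cen htr htrM (ρ z) w₀) (1 : ℤ) := by
    rw [hE₀, Finset.sum_image fun x hx y hy h => hinj hx hy h]
  obtain ⟨W, u, hW, hRR, hWT, -, hspan, hnd⟩ :=
    CanonicalOff.exists_canonical_basis htr E₀
  have hnd₀ := hnd E₀ (Finset.Subset.refl _) hE₀card (by rw [hE₀sum]; exact hns)
  have huW : ∀ b, u b ∈ riemannRochSpace W := fun b => by
    rw [← hspan]
    exact Submodule.subset_span ⟨b, rfl⟩
  -- the matrix `[ρ z (u b)]`
  have hcard' : Fintype.card ↥s = gR K F := by rw [Fintype.card_coe, hcard]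
  obtain ⟨e⟩ : Nonempty (↥s ≃ Fin (gR K F)) := ⟨Fintype.equivFinOfCardEq hcard'⟩
  obtain ⟨A, hAdef⟩ : ∃ A : Matrix (Fin (gR K F)) (Fin (gR K F)) M,
      ∀ a b, A a b = ρ (e.symm a : ι) (u b) := ⟨fun a b => ρ (e.symm a : ι) (u b), fun _ _ => rfl⟩
  have hsumA : ∀ (a : Fin (gR K F)) (c : Fin (gR K F) → K),
      ∑ b, A a b * algebraMap K M (c b) = ρ (e.symm a : ι) (∑ b, c b • u b) := by
    intro a c
    rw [map_sum]
    refine Finset.sum_congr rfl fun b _ => ?_
    rw [hAdef, Algebra.smul_def, map_mul, AlgHom.commutes, mul_comm]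
  -- Step 1: the determinant is non-zero
  have hdet : A.det ≠ 0 := by
    intro h0
    obtain ⟨x, hx0, hx⟩ := Matrix.exists_mulVec_eq_zero_iff.mpr h0
    -- an entry of minimal order among the non-zero ones
    have hne : (Finset.univ.filter fun b => x b ≠ 0).Nonempty := by
      by_contra hemp
      rw [Finset.not_nonempty_iff_eq_empty] at hemp
      apply hx0
      funext b
      by_contra hb
      have : b ∈ Finset.univ.filter fun b => x b ≠ 0 :=
        Finset.mem_filter.mpr ⟨Finset.mem_univ _, hb⟩
      rw [hemp] at this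
      exact absurd this (Finset.notMem_empty _)
    obtain ⟨b₀, hb₀, hmin⟩ := Finset.exists_min_image _ (fun b => w₀.ord (x b)) hne
    rw [Finset.mem_filter] at hb₀
    have hxb₀ : x b₀ ≠ 0 := hb₀.2
    -- the normalised kernel vector
    have hy : ∀ b, x b / x b₀ ∈ w₀.toValuationSubring := by
      intro b
      rcases eq_or_ne (x b) 0 with hb | hb
      · rw [hb, zero_div]
        exact zero_mem _
      · refine (ord_nonneg_iff w₀ (div_ne_zero hb hxb₀)).mp ?_
        rw [div_eq_mul_inv, w₀.ord_mul hb (inv_ne_zero hxb₀), Place.ord_inv]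
        have := hmin b (Finset.mem_filter.mpr ⟨Finset.mem_univ _, hb⟩)
        omega
    have hker : ∀ a, ∑ b, A a b * (x b / x b₀) = 0 := by
      intro a
      have h1 : ∑ b, A a b * x b = 0 := congrFun hx a
      have h2 : ∑ b, A a b * (x b / x b₀) = (∑ b, A a b * x b) / x b₀ := by
        rw [Finset.sum_div]
        exact Finset.sum_congr rfl fun b _ => (mul_div_assoc _ _ _).symm
      rw [h2, h1, zero_div]
    -- its reduction at `w₀`
    choose c hc using fun b => exists_residue_sub_mem htrM w₀ ⟨x b / x b₀, hy b⟩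
    have hcb₀ : c b₀ ≠ 0 := by
      intro hc0
      have h1 := hc b₀
      have h2 : (⟨x b₀ / x b₀, hy b₀⟩ : w₀.toValuationSubring) -
          algebraMap K w₀.toValuationSubring (c b₀) = 1 := by
        apply Subtype.ext
        show x b₀ / x b₀ - algebraMap K M (c b₀) = 1
        rw [hc0, map_zero, sub_zero, div_self hxb₀]
      rw [h2] at h1
      exact (Ideal.ne_top_iff_one _).mp
        (IsLocalRing.maximalIdeal.isMaximal w₀.toValuationSubring).ne_top h1
    have hreg₀ : ∀ a b, A a b ∈ w₀.toValuationSubring := by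
      intro a b
      rw [hAdef]
      refine map_mem_of_mem_L htr htrM (ρ (e.symm a : ι)) w₀ (huW b) (hWT _ ?_)
      rw [hE₀]
      exact Finset.mem_image_of_mem _ (e.symm a).2
    have hvan : ∀ a, (∑ b, A a b * algebraMap K M (c b)) = 0 ∨
        0 < w₀.ord (∑ b, A a b * algebraMap K M (c b)) := by
      intro a
      -- `∑ A a b * c b = ∑ A a b * (c b - y b) ∈ 𝔪`
      have hmem : (∑ b, (⟨A a b, hreg₀ a b⟩ : w₀.toValuationSubring) *
          (algebraMap K w₀.toValuationSubring (c b) - ⟨x b / x b₀, hy b⟩)) ∈
          IsLocalRing.maximalIdeal w₀.toValuationSubring := by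
        refine Ideal.sum_mem _ fun b _ => Ideal.mul_mem_left _ _ ?_
        have h1 := hc b
        rw [← neg_sub]
        exact neg_mem h1
      have hcoe : ((∑ b, (⟨A a b, hreg₀ a b⟩ : w₀.toValuationSubring) *
          (algebraMap K w₀.toValuationSubring (c b) - ⟨x b / x b₀, hy b⟩) :
            w₀.toValuationSubring) : M) = ∑ b, A a b * algebraMap K M (c b) := by
        rw [AddSubmonoidClass.coe_finsetSum]
        have h1 : ∀ b, (((⟨A a b, hreg₀ a b⟩ : w₀.toValuationSubring) *
            (algebraMap K w₀.toValuationSubring (c b) - ⟨x b / x b₀, hy b⟩) :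
              w₀.toValuationSubring) : M) =
            A a b * algebraMap K M (c b) - A a b * (x b / x b₀) := by
          intro b
          show A a b * (algebraMap K M (c b) - x b / x b₀) = _
          ring
        rw [Finset.sum_congr rfl fun b _ => h1 b, Finset.sum_sub_distrib, hker a, sub_zero]
      by_cases h0 : (∑ b, A a b * algebraMap K M (c b)) = 0
      · exact Or.inl h0
      · right
        have h2 := (mem_maximalIdeal_iff_ord_pos w₀ _ (by rw [hcoe]; exact h0)).mp hmem
        rwa [hcoe] at h2
    apply hcb₀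
    have hc0 : c = 0 := by
      refine hnd₀ c fun P hP => ?_
      rw [hE₀, Finset.mem_image] at hP
      obtain ⟨z, hz, rfl⟩ := hP
      have h1 := hvan (e ⟨z, hz⟩)
      rw [hsumA, Equiv.symm_apply_apply] at h1
      rcases h1 with h1 | h1
      · left
        exact (map_eq_zero_iff (ρ z) (ρ z).injective).mp h1
      · right
        exact ord_pos_of_ord_map_pos htr htrM (ρ z) w₀ h1
    rw [hc0]
    rfl
  -- Step 2: the exceptional set
  refine ⟨(divOf K A.det).support ∪ s.biUnion fun z => W.support.biUnion fun v =>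
    Place.fiberAlong (ρ z) (HB.Loc2.algHom_isIntegral htr htrM (ρ z)) v, fun w hw => ?_⟩
  rw [Finset.mem_union, not_or] at hw
  have hΔ : w.ord A.det = 0 := by
    have h1 := Finsupp.notMem_support_iff.mp hw.1
    rwa [divOf_apply htrM] at h1
  have hWw : ∀ z ∈ s, W (cen htr htrM (ρ z) w) = 0 := by
    intro z hz
    by_contra hne
    apply hw.2
    rw [Finset.mem_biUnion]
    refine ⟨z, hz, ?_⟩
    rw [Finset.mem_biUnion]
    refine ⟨cen htr htrM (ρ z) w, Finsupp.mem_support_iff.mpr hne, ?_⟩
    rw [Place.mem_fiberAlong]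
    rfl
  have hreg : ∀ a b, A a b ∈ w.toValuationSubring := by
    intro a b
    rw [hAdef]
    exact map_mem_of_mem_L htr htrM (ρ (e.symm a : ι)) w (huW b) (hWw _ (e.symm a).2)
  have hK := eq_zero_of_mulVec_mem w A hreg hdet hΔ
  -- the set of centres at `w`
  obtain ⟨E, hE⟩ : ∃ E : Finset (Place K F), E = s.image fun z => cen htr htrM (ρ z) w :=
    ⟨_, rfl⟩
  have hD0 : (0 : Divisor K F) ≤ ∑ v ∈ E, Finsupp.single v (1 : ℤ) := sum_single_nonneg E
  -- no non-zero section of `L(W)` vanishes at all the centres
  have hbot : riemannRochSpace (W - ∑ v ∈ E, Finsupp.single v (1 : ℤ)) = ⊥ := by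
    rw [Submodule.eq_bot_iff]
    intro f hf
    by_contra hf0
    have hfW : f ∈ riemannRochSpace W := L_mono (sub_le_self W hD0) hf
    rw [← hspan] at hfW
    obtain ⟨c, hc⟩ := (Submodule.mem_span_range_iff_exists_fun K).mp hfW
    have hc0 : c = 0 := by
      refine hK c fun a => ?_
      right
      rw [hsumA, hc]
      refine ord_map_pos htr htrM (ρ (e.symm a : ι)) w ?_
      have hmemE : cen htr htrM (ρ (e.symm a : ι)) w ∈ E := by
        rw [hE]
        exact Finset.mem_image_of_mem _ (e.symm a).2
      have h1 := (mem_L_of_ne_zero hf0).mp hf (cen htr htrM (ρ (e.symm a : ι)) w)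
      rw [Finsupp.sub_apply, hWw _ (e.symm a).2,
        CanonicalOff.sum_single_apply_of_mem hmemE] at h1
      omega
    apply hf0
    rw [← hc, hc0]
    simp
  -- Riemann–Roch for `W - ∑ centres`
  have hrr := hRR (W - ∑ v ∈ E, Finsupp.single v (1 : ℤ))
  rw [hbot, finrank_bot, sub_sub_cancel, map_sub, hW, NonSpecialStep.degree_sum_single htr] at hrr
  -- `l(∑ centres) ≥ 1`
  haveI : Module.Finite K ↥(riemannRochSpace (∑ v ∈ E, Finsupp.single v (1 : ℤ))) :=
    finite_L htr _
  have hge : 1 ≤ Module.finrank K ↥(riemannRochSpace (∑ v ∈ E, Finsupp.single v (1 : ℤ))) := by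
    have h1 := Submodule.finrank_mono (L_mono hD0)
    rwa [NonSpecialStep.finrank_L_zero htr] at h1
  have hle : E.card ≤ gR K F := by
    rw [hE, ← hcard]
    exact Finset.card_image_le
  have hEcard : E.card = gR K F := by
    push_cast at hrr
    omega
  have hinjw : Set.InjOn (fun z => cen htr htrM (ρ z) w) ↑s := by
    apply Finset.card_image_iff.mp
    rw [← hE, hEcard, hcard]
  refine ⟨hinjw, ?_⟩
  have hsum : (∑ z ∈ s, Finsupp.single (cen htr htrM (ρ z) w) (1 : ℤ) : Divisor K F) =
      ∑ v ∈ E, Finsupp.single v (1 : ℤ) := by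
    rw [hE, Finset.sum_image fun x hx y hy h => hinjw hx hy h]
  rw [hsum]
  push_cast at hrr
  omega

/-- **The special locus is finite**: if the `gR` centres are pairwise distinct and non-special
at one place `w₀` of `M`, the set of places where they are not is finite. -/
theorem finite_special (htr : Algebra.trdeg K F = 1) (htrM : Algebra.trdeg K M = 1)
    {ι : Type*} (ρ : ι → (F →ₐ[K] M)) (s : Finset ι) (hcard : s.card = gR K F)
    (w₀ : Place K M) (hinj : Set.InjOn (fun z => cen htr htrM (ρ z) w₀) ↑s)
    (hns : Module.finrank K ↥(riemannRochSpace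
      (∑ z ∈ s, Finsupp.single (cen htr htrM (ρ z) w₀) (1 : ℤ))) = 1) :
    {w : Place K M | ¬ (Set.InjOn (fun z => cen htr htrM (ρ z) w) ↑s ∧
      Module.finrank K ↥(riemannRochSpace
        (∑ z ∈ s, Finsupp.single (cen htr htrM (ρ z) w) (1 : ℤ))) = 1)}.Finite := by
  obtain ⟨S, hS⟩ := exists_finset_nonspecial htr htrM ρ s hcard w₀ hinj hns
  refine S.finite_toSet.subset fun w hw => ?_
  by_contra hnot
  exact hw (hS w hnot)

/-- The form consumed by the assembly: the other `gR` of `gR + 1` moving points. -/
theorem finite_special_erase (htr : Algebra.trdeg K F = 1) (htrM : Algebra.trdeg K M = 1)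
    {ι : Type*} [Fintype ι] [DecidableEq ι] (ρ : ι → (F →ₐ[K] M)) (z : ι)
    (hcard : Fintype.card ι = gR K F + 1) (w₀ : Place K M)
    (hinj : Set.InjOn (fun z' => cen htr htrM (ρ z') w₀) ↑(Finset.univ.erase z))
    (hns : Module.finrank K ↥(riemannRochSpace
      (∑ z' ∈ Finset.univ.erase z, Finsupp.single (cen htr htrM (ρ z') w₀) (1 : ℤ))) = 1) :
    {w : Place K M | Module.finrank K ↥(riemannRochSpace
      (∑ z' ∈ Finset.univ.erase z, Finsupp.single (cen htr htrM (ρ z') w) (1 : ℤ))) ≠ 1}.Finite := by
  have hc : (Finset.univ.erase z).card = gR K F := by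
    rw [Finset.card_erase_of_mem (Finset.mem_univ z), Finset.card_univ, hcard]
    rfl
  refine (finite_special htr htrM ρ (Finset.univ.erase z) hc w₀ hinj hns).subset fun w hw => ?_
  intro h
  exact hw h.2

end Curve

end Fermat.Agent.S27.M.FiniteSpecial
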