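/-
Program PJ (statement S27), strand M (curve-level ends), leaf M2: genus zero.

For a function field `F` of one variable over an algebraically closed field `K` of characteristic
zero whose (frozen) genus `genusFF K F` is zero, every divisor of degree zero is principal, so the
group `Pic0 K F` of divisor classes of degree zero is trivial.

The proof is Riemann's inequality `l(D) ≥ deg D + 1 - gR` of strand R of program MW together with
`gR = genusFF` (`R.gR_eq_genusFF`).  It is a self-contained copy of the level-free half of
`S17/F/GenusZero.lean`, on strand R only.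
-/
import Mathlib
import Fermat.Prelude.Def_AlgebraicCurve_Repartitions
import Fermat.Agent.S17.R.Riemann
import Fermat.Agent.S17.R.ReducedCore
import Fermat.Agent.S17.R.H1

set_option autoImplicit false

open AlgebraicCurve

namespace Fermat.Agent.S27.M.GenusZero

variable {K F : Type*} [Field K] [Field F] [Algebra K F]
variable [IsAlgClosed K] [CharZero K] [Algebra.EssFiniteType K F]

/-- Genus zero (Riemann's constant): every divisor of degree zero is principal. -/
theorem mem_principal_of_gR (htr : Algebra.trdeg K F = 1)
    (hg : Fermat.Agent.S17.R.gR K F = 0)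
    {D : Divisor K F} (hD : Divisor.degree D = 0) :
    D ∈ Divisor.principal (K := K) (F := F) := by
  have h1 := Fermat.Agent.S17.R.riemann_inequality htr D
  rw [hD, hg] at h1
  have h2 : 0 < Module.finrank K ↥(riemannRochSpace D) := by
    have h3 : (1 : ℤ) ≤ (Module.finrank K ↥(riemannRochSpace D) : ℤ) := by simpa using h1
    exact_mod_cast h3
  obtain ⟨f, hf⟩ : ∃ f : ↥(riemannRochSpace D), f ≠ 0 := by
    by_contra hcon
    have hall : ∀ f : ↥(riemannRochSpace D), f = 0 := fun f => by
      by_contra hf
      exact hcon ⟨f, hf⟩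
    have : Subsingleton ↥(riemannRochSpace D) :=
      ⟨fun a b => (hall a).trans (hall b).symm⟩
    rw [Module.finrank_zero_of_subsingleton] at h2
    exact lt_irrefl _ h2
  have hf0 : (f : F) ≠ 0 := fun h => hf (Subtype.ext h)
  have hE : 0 ≤ D + Fermat.Agent.S17.R.divOf K (f : F) :=
    Fermat.Agent.S17.R.add_divOf_nonneg htr hf0 f.2
  have hdeg : Divisor.degree (D + Fermat.Agent.S17.R.divOf K (f : F)) = 0 := by
    rw [map_add, hD, Fermat.Agent.S17.R.degree_divOf htr, add_zero]
  have h0 : D + Fermat.Agent.S17.R.divOf K (f : F) = 0 :=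
    Fermat.Agent.S17.R.ReducedCore.eq_zero_of_nonneg_of_degree_eq_zero htr hE hdeg
  have hDeq : D = Fermat.Agent.S17.R.divOf K ((f : F)⁻¹) := by
    rw [Fermat.Agent.S17.R.divOf_inv htr]
    exact eq_neg_of_add_eq_zero_left h0
  rw [hDeq]
  exact Fermat.Agent.S17.R.divOf_mem_principal htr (inv_ne_zero hf0)

/-- Genus zero (Riemann's constant): the group of divisor classes of degree zero is trivial. -/
theorem subsingleton_pic0_of_gR (htr : Algebra.trdeg K F = 1)
    (hg : Fermat.Agent.S17.R.gR K F = 0) : Subsingleton (Pic0 K F) := by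
  have key : ∀ z : Pic0 K F, z = 0 := by
    intro z
    obtain ⟨D, rfl⟩ := Pic0.mk_surjective z
    have hD : Divisor.degree (D : Divisor K F) = 0 := Divisor.mem_degZero.mp D.2
    have hp := mem_principal_of_gR htr hg hD
    exact (QuotientAddGroup.eq_zero_iff D).mpr (AddSubgroup.mem_addSubgroupOf.mpr hp)
  exact ⟨fun x y => (key x).trans (key y).symm⟩

/-- **Leaf M2 / seam (Z) of the S27 contract**: if the frozen genus `genusFF K F` is zero, then
`Pic0 K F` is trivial. -/
theorem subsingleton_pic0 (htr : Algebra.trdeg K F = 1) (hg : genusFF K F = 0) :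
    Subsingleton (Pic0 K F) :=
  subsingleton_pic0_of_gR htr (((Fermat.Agent.S17.R.gR_eq_genusFF htr).1).trans hg)

end Fermat.Agent.S27.M.GenusZero
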